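import Fermat.Agent.RR.API

/-!
Places of a function field over a value of a transcendental element, described by embeddings
into a valued field.
-/

set_option autoImplicit false

noncomputable section

open AlgebraicCurve WithZero

namespace FLTAgent.Genus

/-- additive form of a valuation -/
def vlog {M : Type*} [Field M] (ν : Valuation M ℤᵐ⁰) (x : M) : ℤ := -(WithZero.log (ν x))

section Vlog

variable {M : Type*} [Field M] (ν : Valuation M ℤᵐ⁰)

theorem val_le_one_iff {x : M} : ν x ≤ 1 ↔ x = 0 ∨ 0 ≤ vlog ν x := by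
  rcases eq_or_ne x 0 with rfl | hx
  · simp
  · rw [or_iff_right hx, vlog]
    have h := (WithZero.log_le_log ((Valuation.ne_zero_iff ν).mpr hx) one_ne_zero).symm
    rw [h, WithZero.log_one]
    omega

theorem vlog_mul {x y : M} (hx : x ≠ 0) (hy : y ≠ 0) :
    vlog ν (x * y) = vlog ν x + vlog ν y := by
  simp only [vlog, map_mul]
  rw [WithZero.log_mul ((Valuation.ne_zero_iff ν).mpr hx) ((Valuation.ne_zero_iff ν).mpr hy)]
  ring

theorem vlog_zpow (x : M) (n : ℤ) : vlog ν (x ^ n) = n * vlog ν x := by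
  simp only [vlog, map_zpow₀, WithZero.log_zpow, smul_eq_mul]
  ring

theorem vlog_pow (x : M) (n : ℕ) : vlog ν (x ^ n) = n * vlog ν x := by
  simpa using vlog_zpow ν x n

theorem vlog_inv (x : M) : vlog ν x⁻¹ = -vlog ν x := by
  simp [vlog, map_inv₀, WithZero.log_inv]

theorem val_lt_one_iff {x : M} (hx : x ≠ 0) : ν x < 1 ↔ 0 < vlog ν x := by
  rw [← WithZero.log_lt_log ((Valuation.ne_zero_iff ν).mpr hx) one_ne_zero, WithZero.log_one,
    vlog]
  omega

end Vlog

section Place

variable {K F : Type*} [Field K] [Field F] [Algebra K F]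

theorem place_mem_iff (v : Place K F) (x : F) :
    x ∈ v.toValuationSubring ↔ v.adicValuation x ≤ 1 := by
  refine ⟨v.adicValuation_le_one_of_mem, fun h => ?_⟩
  by_contra hx
  have hx0 : x ≠ 0 := fun h0 => hx (h0 ▸ v.toValuationSubring.zero_mem)
  have hxi : x⁻¹ ∈ v.toValuationSubring := (v.toValuationSubring.mem_or_inv_mem x).resolve_left hx
  have h1 : v.adicValuation x⁻¹ ≤ 1 := v.adicValuation_le_one_of_mem hxi
  have h2 : v.adicValuation x⁻¹ ≠ 1 := by
    intro h2
    obtain ⟨u, hu⟩ := (v.adicValuation_coe_eq_one_iff ⟨x⁻¹, hxi⟩).mp h2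
    apply hx
    have h3 := congrArg Subtype.val u.mul_inv
    rw [hu] at h3
    simp only [MulMemClass.coe_mul, OneMemClass.coe_one] at h3
    have h4 : ((↑u⁻¹ : v.toValuationSubring) : F) = x := by
      field_simp at h3
      exact h3
    exact h4 ▸ (↑u⁻¹ : v.toValuationSubring).2
  rw [map_inv₀] at h1 h2
  have h5 : v.adicValuation x = 1 :=
    le_antisymm h ((inv_le_one₀ (zero_lt_iff.mpr (v.adicValuation_ne_zero hx0))).mp h1)
  exact h2 (by rw [h5, inv_one])

theorem place_mem_iff_ord (v : Place K F) (x : F) :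
    x ∈ v.toValuationSubring ↔ x = 0 ∨ 0 ≤ v.ord x := by
  rw [place_mem_iff, v.adicValuation_le_one_iff]

theorem adicValuation_algebraMap_eq_one (v : Place K F) {c : K} (hc : c ≠ 0) :
    v.adicValuation (algebraMap K F c) = 1 := by
  refine le_antisymm (v.adicValuation_algebraMap_le_one c) ?_
  have h := v.adicValuation_algebraMap_le_one c⁻¹
  rw [map_inv₀, map_inv₀, inv_le_one₀ (zero_lt_iff.mpr (v.adicValuation_ne_zero (by simpa)))] at h
  exact h

/-- A nontrivial integer valuation, trivial on the constants, is a multiple of a place. -/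
theorem exists_place_of_valuation (ν : Valuation F ℤᵐ⁰)
    (hK : ∀ c : K, ν (algebraMap K F c) ≤ 1) {x : F} (hx : 1 < ν x) :
    ∃ w : Place K F, ∃ g : ℕ, 0 < g ∧ ∀ f : F, f ≠ 0 → vlog ν f = g * w.ord f := by
  classical
  have hpid : IsPrincipalIdealRing ν.valuationSubring := by
    refine ⟨fun I => ?_⟩
    rcases eq_or_ne I ⊥ with rfl | hI
    · exact ⟨⟨0, by simp⟩⟩
    · obtain ⟨a₁, ha₁, ha₁0⟩ := Submodule.exists_mem_ne_zero_of_ne_bot hI
      have hex : ∃ n : ℕ, ∃ a ∈ I, a ≠ 0 ∧ vlog ν (a : F) = n := by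
        have h := (val_le_one_iff ν).mp a₁.2
        rw [or_iff_right (by simpa using ha₁0)] at h
        exact ⟨(vlog ν (a₁ : F)).toNat, a₁, ha₁, ha₁0, (Int.toNat_of_nonneg h).symm⟩
      obtain ⟨a, haI, ha0, han⟩ := Nat.find_spec hex
      refine ⟨⟨a, le_antisymm (fun b hb => ?_) ((Submodule.span_singleton_le_iff_mem _ _).mpr haI)⟩⟩
      rw [Submodule.mem_span_singleton]
      rcases eq_or_ne b 0 with rfl | hb0
      · exact ⟨0, by simp⟩
      · have hbF : (b : F) ≠ 0 := by simpa using hb0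
        have haF : (a : F) ≠ 0 := by simpa using ha0
        have hb' := (val_le_one_iff ν).mp b.2
        rw [or_iff_right hbF] at hb'
        have hmin : Nat.find hex ≤ (vlog ν (b : F)).toNat :=
          Nat.find_le ⟨b, hb, hb0, (Int.toNat_of_nonneg hb').symm⟩
        have hq : (b : F) * (a : F)⁻¹ ∈ ν.valuationSubring := by
          rw [Valuation.mem_valuationSubring_iff, val_le_one_iff]
          right
          rw [vlog_mul ν hbF (inv_ne_zero haF), vlog_inv]
          omega
        exact ⟨⟨_, hq⟩, Subtype.ext (by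
          rw [smul_eq_mul]
          show (b : F) * (a : F)⁻¹ * (a : F) = b
          rw [mul_assoc, inv_mul_cancel₀ haF, mul_one])⟩
  obtain ⟨w, hwm⟩ : ∃ w : Place K F, ∀ y : F, y ∈ w.toValuationSubring ↔ ν y ≤ 1 :=
    ⟨{ toValuationSubring := ν.valuationSubring
       algebraMap_mem' := fun c => (Valuation.mem_valuationSubring_iff _ _).mpr (hK c)
       ne_top' := fun h => by
         have h1 : x ∈ ν.valuationSubring := h ▸ ValuationSubring.mem_top x
         exact absurd ((Valuation.mem_valuationSubring_iff _ _).mp h1) (not_le.mpr hx)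
       isPrincipalIdealRing' := hpid }, fun y => Valuation.mem_valuationSubring_iff _ _⟩
  obtain ⟨π, hπ⟩ := IsDiscreteValuationRing.exists_irreducible w.toValuationSubring
  have hπ0 : (π : F) ≠ 0 := by simpa using hπ.ne_zero
  have hunit : ∀ u : w.toValuationSubringˣ, vlog ν ((u : w.toValuationSubring) : F) = 0 := by
    intro u
    have hu0 : ((u : w.toValuationSubring) : F) ≠ 0 := by simp
    have h1 := (val_le_one_iff ν).mp ((hwm _).mp (u : w.toValuationSubring).2)
    have h2 := (val_le_one_iff ν).mp ((hwm _).mp (↑u⁻¹ : w.toValuationSubring).2)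
    rw [or_iff_right hu0] at h1
    rw [or_iff_right (by simp)] at h2
    have h3 : ((↑u⁻¹ : w.toValuationSubring) : F) = ((u : w.toValuationSubring) : F)⁻¹ := by
      refine eq_inv_of_mul_eq_one_left ?_
      exact congrArg Subtype.val u.inv_mul
    rw [h3, vlog_inv] at h2
    omega
  have hπpos : 0 < vlog ν (π : F) := by
    have h1 := (val_le_one_iff ν).mp ((hwm _).mp π.2)
    rw [or_iff_right hπ0] at h1
    rcases h1.lt_or_eq with h | h
    · exact h
    · exfalso
      have hinv : (π : F)⁻¹ ∈ w.toValuationSubring := by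
        refine (hwm _).mpr ((val_le_one_iff ν).mpr (Or.inr ?_))
        rw [vlog_inv]
        omega
      exact hπ.not_isUnit (IsUnit.of_mul_eq_one ⟨_, hinv⟩ (Subtype.ext (mul_inv_cancel₀ hπ0)))
  refine ⟨w, (vlog ν (π : F)).toNat, by omega, fun f hf => ?_⟩
  obtain ⟨u, hu⟩ := w.exists_unit_mul_zpow hf hπ
  conv_lhs => rw [hu]
  rw [vlog_mul ν (by simp) (zpow_ne_zero _ hπ0), hunit, vlog_zpow, Int.toNat_of_nonneg hπpos.le]
  ring

theorem place_ext_of_vlog {w w' : Place K F} {g g' : ℕ} (hg : 0 < g) (hg' : 0 < g')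
    (h : ∀ f : F, f ≠ 0 → (g : ℤ) * w.ord f = g' * w'.ord f) : w = w' := by
  refine Place.ext (SetLike.ext fun f => ?_)
  rw [place_mem_iff_ord, place_mem_iff_ord]
  rcases eq_or_ne f 0 with rfl | hf
  · simp
  · rw [or_iff_right hf, or_iff_right hf]
    have h1 := h f hf
    have hg1 : (0 : ℤ) < g := by exact_mod_cast hg
    have hg2 : (0 : ℤ) < g' := by exact_mod_cast hg'
    constructor <;> intro h2 <;> nlinarith

end Place

section PolyEval

variable {K M : Type*} [Field K] [Field M] [Algebra K M] (ν : Valuation M ℤᵐ⁰)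
  (hK : ∀ c : K, c ≠ 0 → ν (algebraMap K M c) = 1)

include hK

theorem val_aeval_le_one {u : M} (hu : ν u ≤ 1) (P : Polynomial K) :
    ν (Polynomial.aeval u P) ≤ 1 := by
  induction P using Polynomial.induction_on' with
  | add p q hp hq => rw [map_add]; exact (ν.map_add _ _).trans (max_le hp hq)
  | monomial n c =>
    rw [Polynomial.aeval_monomial, map_mul, map_pow]
    rcases eq_or_ne c 0 with rfl | hc
    · simp
    · rw [hK c hc, one_mul]; exact pow_le_one₀ zero_le hu

theorem val_aeval_eq {u : M} (hu : ν u < 1) {P : Polynomial K} (hP : P ≠ 0) :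
    ν (Polynomial.aeval u P) = ν u ^ P.rootMultiplicity 0 := by
  obtain ⟨Q, hQ, hQ0⟩ := Polynomial.exists_eq_pow_rootMultiplicity_mul_and_not_dvd P hP 0
  rw [map_zero, sub_zero] at hQ hQ0
  have h0 : Q.coeff 0 ≠ 0 := fun h => hQ0 (Polynomial.X_dvd_iff.mpr h)
  have hQv : ν (Polynomial.aeval u Q) = 1 := by
    rw [← Polynomial.X_mul_divX_add Q, map_add, map_mul, Polynomial.aeval_X, Polynomial.aeval_C]
    rw [ν.map_add_eq_of_lt_right, hK _ h0]
    rw [hK _ h0, map_mul]
    exact lt_of_le_of_lt (mul_le_of_le_one_right' (val_aeval_le_one ν hK hu.le _)) hu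
  conv_lhs => rw [hQ]
  rw [map_mul, map_pow, Polynomial.aeval_X, map_mul, map_pow, hQv, mul_one]

end PolyEval

theorem pow_div_pow_le_one_iff {L : Type*} [Field L] (ν : Valuation L ℤᵐ⁰) {z : L} (hz : z ≠ 0)
    (hz1 : ν z < 1) (m n : ℕ) : ν z ^ m / ν z ^ n ≤ 1 ↔ n ≤ m := by
  have hpos : 0 < ν z := zero_lt_iff.mpr ((Valuation.ne_zero_iff ν).mpr hz)
  rw [div_le_one₀ (pow_pos hpos n), pow_le_pow_iff_right_of_lt_one₀ hpos hz1]

/-- comparison of two valuations on `K(u)` -/
theorem val_adjoin_le_one_iff {K F M : Type*} [Field K] [Field F] [Algebra K F] [Field M]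
    [Algebra K M] {u : F} (f : F →ₐ[K] M) (ν₁ : Valuation F ℤᵐ⁰) (ν₂ : Valuation M ℤᵐ⁰)
    (h1 : ∀ c : K, c ≠ 0 → ν₁ (algebraMap K F c) = 1)
    (h2 : ∀ c : K, c ≠ 0 → ν₂ (algebraMap K M c) = 1)
    (hu0 : u ≠ 0) (hu1 : ν₁ u < 1) (hu2 : ν₂ (f u) < 1)
    {x : F} (hx : x ∈ IntermediateField.adjoin K ({u} : Set F)) :
    ν₁ x ≤ 1 ↔ ν₂ (f x) ≤ 1 := by
  obtain ⟨P, Q, rfl⟩ := IntermediateField.mem_adjoin_simple_iff _ _ |>.mp hx
  rcases eq_or_ne P 0 with rfl | hP
  · simp
  rcases eq_or_ne Q 0 with rfl | hQ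
  · simp
  rw [map_div₀ f, ← Polynomial.aeval_algHom_apply, ← Polynomial.aeval_algHom_apply,
    map_div₀, map_div₀, val_aeval_eq ν₁ h1 hu1 hP, val_aeval_eq ν₁ h1 hu1 hQ,
    val_aeval_eq ν₂ h2 hu2 hP, val_aeval_eq ν₂ h2 hu2 hQ]
  rw [pow_div_pow_le_one_iff ν₁ hu0 hu1, pow_div_pow_le_one_iff ν₂ (by simpa using hu0) hu2]

section Fibre

open FLTAgent.RR

universe uK uF uM uI

variable {K : Type uK} {F : Type uF} {M : Type uM} [Field K] [Field F] [Algebra K F] [Field M]
  [Algebra K M] [IsAlgClosed K] [CharZero K] [FnField K F]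

theorem not_algebraic_of_not_mem_range {h : F} (hh : h ∉ Set.range (algebraMap K F)) :
    Transcendental K h := by
  intro halg
  apply hh
  have hint : IsIntegral K h := isAlgebraic_iff_isIntegral.mp halg
  have hdeg : (minpoly K h).degree = 1 :=
    IsAlgClosed.degree_eq_one_of_irreducible K (minpoly.irreducible hint)
  exact minpoly.mem_range_of_degree_eq_one K h hdeg

/-- a nonconstant function whose only pole is `w` -/
theorem exists_pole_only_at {u : F} (hu : Transcendental K u) (w : Place K F) :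
    ∃ h : F, h ≠ 0 ∧ w.ord h < 0 ∧ ∀ v : Place K F, v ≠ w → 0 ≤ v.ord h := by
  classical
  haveI := RR.hasCanonicalDivisor (K := K) (F := F)
  set n : ℤ := (genusFF K F : ℤ) + 1 with hn
  have hrr := RR.riemannRoch (K := K) (F := F) (RR.D_ne_zero hu) (Finsupp.single w n)
  rw [Divisor.degree_single, RR.deg_eq_one, Nat.cast_one, mul_one] at hrr
  have h2 : 2 ≤ Module.finrank K (riemannRochSpace (K := K) (Finsupp.single w n)) := by omega
  obtain ⟨h, hmem, hh⟩ : ∃ h ∈ riemannRochSpace (K := K) (Finsupp.single w n),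
      h ∉ Set.range (algebraMap K F) := by
    by_contra hne
    push Not at hne
    have hle : riemannRochSpace (K := K) (Finsupp.single w n) ≤
        LinearMap.range (Algebra.linearMap K F) := fun h hm => by
      obtain ⟨c, hc⟩ := hne h hm
      exact ⟨c, hc⟩
    have h1 := Submodule.finrank_mono hle
    have h3 := LinearMap.finrank_range_le (Algebra.linearMap K F)
    rw [Module.finrank_self] at h3
    omega
  have h0 : h ≠ 0 := fun h0 => hh ⟨0, by rw [map_zero, h0]⟩
  have hm : ∀ v : Place K F, -(Finsupp.single w n v) ≤ v.ord h := fun v =>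
    (mem_riemannRochSpace_iff.mp hmem v).resolve_left h0
  have hv : ∀ v : Place K F, v ≠ w → 0 ≤ v.ord h := fun v hvw => by
    simpa [Finsupp.single_eq_of_ne hvw] using hm v
  refine ⟨h, h0, ?_, hv⟩
  by_contra hw
  have htr := not_algebraic_of_not_mem_range hh
  have hsum := RR.sum_ord_poles htr ∅ (fun v => by
    simp only [Finset.notMem_empty, false_iff, not_lt]
    by_cases hvw : v = w
    · subst hvw; exact not_lt.mp hw
    · exact hv v hvw)
  haveI := RR.finiteDimensional_adjoin htr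
  have hpos : 0 < Module.finrank (IntermediateField.adjoin K ({h} : Set F)) F :=
    Module.finrank_pos
  simp only [Finset.sum_empty, ndeg] at hsum
  omega

/-- If `h` is regular at all conjugates, its minimal polynomial over `K(u)` has coefficients
regular at `u = 0`, so `h` is regular at every place over `u = 0`. -/
theorem regular_of_conjugates {u : F} (hu : Transcendental K u) (ν : Valuation M ℤᵐ⁰)
    (hK : ∀ c : K, c ≠ 0 → ν (algebraMap K M c) = 1)
    {ι : Type uI} [Finite ι] (σ : ι → F →ₐ[K] M) (hσ : Function.Injective σ)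
    (hι : Nat.card ι = ndeg K u) {U : M} (hU : ∀ i, σ i u = U) (hU1 : ν U < 1)
    {h : F} (hreg : ∀ i, ν (σ i h) ≤ 1) (w : Place K F) (hw : 0 < w.ord u) :
    0 ≤ w.ord h := by
  classical
  haveI := RR.finiteDimensional_adjoin hu
  haveI : CharZero (IntermediateField.adjoin K ({u} : Set F)) :=
    charZero_of_injective_algebraMap (algebraMap K _).injective
  haveI : Nonempty ι := by
    refine Finite.card_pos_iff.mp ?_
    rw [hι]
    exact Module.finrank_pos
  obtain ⟨i₀⟩ := ‹Nonempty ι›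
  set L := IntermediateField.adjoin K ({u} : Set F) with hL
  have hagree : ∀ (i : ι) (x : L), σ i (x : F) = σ i₀ (x : F) := by
    intro i x
    obtain ⟨P, Q, hPQ⟩ := IntermediateField.mem_adjoin_simple_iff _ _ |>.mp x.2
    rw [hPQ, map_div₀, map_div₀, ← Polynomial.aeval_algHom_apply, ← Polynomial.aeval_algHom_apply,
      ← Polynomial.aeval_algHom_apply, ← Polynomial.aeval_algHom_apply, hU, hU]
  letI : Algebra L M := ((σ i₀).toRingHom.comp (algebraMap L F)).toAlgebra
  let σL : ι → F →ₐ[L] M := fun i => { (σ i).toRingHom with commutes' := hagree i }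
  let Ω := AlgebraicClosure M
  let τ : ι → F →ₐ[L] Ω := fun i => (IsScalarTower.toAlgHom L M Ω).comp (σL i)
  have hτ : Function.Injective τ := by
    intro i j hij
    refine hσ (AlgHom.ext fun x => ?_)
    exact (algebraMap M Ω).injective (DFunLike.congr_fun hij x)
  haveI : Fintype ι := Fintype.ofFinite ι
  haveI : Algebra.IsSeparable L F := inferInstance
  have hbij : Function.Bijective τ := by
    rw [Fintype.bijective_iff_injective_and_card]
    refine ⟨hτ, ?_⟩
    rw [AlgHom.card L F Ω, ← Nat.card_eq_fintype_card, hι]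
    rfl
  have hint : IsIntegral L h := IsIntegral.of_finite L h
  set m := minpoly L h with hmdef
  let φ : ν.valuationSubring →+* Ω := (algebraMap M Ω).comp ν.valuationSubring.subtype
  have hlift : m.map (algebraMap L Ω) ∈ Polynomial.lifts φ := by
    rw [(IsAlgClosed.splits (m.map (algebraMap L Ω))).eq_prod_roots_of_monic
      ((minpoly.monic hint).map _)]
    refine multiset_prod_mem _ fun q hq => ?_
    obtain ⟨r, hr, rfl⟩ := Multiset.mem_map.mp hq
    have hr' : r ∈ m.rootSet Ω := by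
      rw [Polynomial.mem_rootSet]
      refine ⟨minpoly.ne_zero hint, ?_⟩
      have := (Polynomial.mem_roots'.mp hr).2
      simpa [Polynomial.IsRoot, Polynomial.eval_map_algebraMap] using this
    rw [hmdef, ← Algebra.IsAlgebraic.range_eval_eq_rootSet_minpoly Ω h] at hr'
    obtain ⟨t, ht⟩ := hr'
    obtain ⟨i, rfl⟩ := hbij.2 t
    subst ht
    refine (Polynomial.lifts_iff_coeff_lifts _).mpr fun n => ?_
    refine Set.mem_range.mpr ?_
    have hmem : σ i h ∈ ν.valuationSubring := (Valuation.mem_valuationSubring_iff _ _).mpr (hreg i)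
    obtain ⟨q', hq'⟩ : ∃ q' : Polynomial ν.valuationSubring,
        q'.map φ = Polynomial.X - Polynomial.C (τ i h) :=
      ⟨Polynomial.X - Polynomial.C ⟨_, hmem⟩, by simp [φ, τ, σL]⟩
    exact ⟨q'.coeff n, by rw [← hq', Polynomial.coeff_map]⟩
  have hu0 : u ≠ 0 := fun h0 => by simp [h0] at hw
  have hwu : w.adicValuation u < 1 := by
    rw [w.adicValuation_eq_exp_neg_ord hu0, ← exp_zero, exp_lt_exp]
    omega
  have hcoef : ∀ n, w.adicValuation (((m.coeff n : L) : F)) ≤ 1 := by
    intro n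
    rw [val_adjoin_le_one_iff (σ i₀) w.adicValuation ν
      (fun c hc => adicValuation_algebraMap_eq_one w hc) hK hu0 hwu (by rw [hU]; exact hU1)
      (m.coeff n).2]
    obtain ⟨a, ha⟩ := (Polynomial.lifts_iff_coeff_lifts _).mp hlift n
    rw [Polynomial.coeff_map, IsScalarTower.algebraMap_apply L M Ω] at ha
    have ha' : σ i₀ ((m.coeff n : L) : F) = (a : M) := ((algebraMap M Ω).injective ha).symm
    rw [ha']
    exact (Valuation.mem_valuationSubring_iff _ _).mp a.2
  rcases eq_or_ne h 0 with rfl | h0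
  · simp
  suffices h ∈ w.toValuationSubring from ((place_mem_iff_ord w h).mp this).resolve_left h0
  have hmF : (m.map (algebraMap L F)) ∈ Polynomial.lifts w.toValuationSubring.subtype := by
    refine (Polynomial.lifts_iff_coeff_lifts _).mpr fun n => ?_
    rw [Polynomial.coeff_map]
    exact ⟨⟨_, (place_mem_iff w _).mpr (hcoef n)⟩, rfl⟩
  obtain ⟨q, hq, -, hqm⟩ := Polynomial.lifts_and_natDegree_eq_and_monic hmF
    ((minpoly.monic hint).map _)
  have hintw : IsIntegral w.toValuationSubring h := by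
    refine ⟨q, hqm, ?_⟩
    rw [Polynomial.eval₂_eq_eval_map]
    show Polynomial.eval h (q.map w.toValuationSubring.subtype) = 0
    rw [hq, Polynomial.eval_map_algebraMap, minpoly.aeval]
  obtain ⟨y, hy⟩ := IsIntegrallyClosed.isIntegral_iff.mp hintw
  rw [← hy]
  exact y.2

/-- The places over `u = 0` correspond to the classes of embeddings. -/
theorem fibre {u : F} (hu : Transcendental K u) (ν : Valuation M ℤᵐ⁰)
    (hK : ∀ c : K, c ≠ 0 → ν (algebraMap K M c) = 1)
    {ι : Type uI} [Finite ι] (σ : ι → F →ₐ[K] M) (hσ : Function.Injective σ)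
    (hι : Nat.card ι = ndeg K u) {U : M} (hU : ∀ i, σ i u = U) {k : ℕ} (hk : vlog ν U = k)
    (hk0 : 0 < k) (r : Setoid ι)
    (hr : ∀ i i' : ι, r i i' → ∀ x : F, ν (σ i x) = ν (σ i' x))
    (hdiv : ∀ (i : ι) (x : F), x ≠ 0 →
      (k : ℤ) ∣ (Nat.card {i' : ι // r i i'} : ℤ) * vlog ν (σ i x)) :
    ∃ s : Finset (Place K F), (∀ w, w ∈ s ↔ 0 < w.ord u) ∧ s.card = Nat.card (Quotient r) ∧
      (∀ i, ∃ w ∈ s, ∀ f : F, f ≠ 0 → w.ord u * vlog ν (σ i f) = k * w.ord f) ∧
      ∀ w ∈ s, ∃ i, ∀ f : F, f ≠ 0 → w.ord u * vlog ν (σ i f) = k * w.ord f := by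
  classical
  have hu0 : u ≠ 0 := fun h0 => hu (h0 ▸ isAlgebraic_zero)
  have hex : ∀ i, ∃ w : Place K F, ∃ g : ℕ, 0 < g ∧
      ∀ f : F, f ≠ 0 → vlog ν (σ i f) = g * w.ord f := by
    intro i
    have hU0 : U ≠ 0 := hU i ▸ (map_ne_zero _).mpr hu0
    obtain ⟨w, g, hg, h⟩ := exists_place_of_valuation (K := K) (ν.comap (σ i).toRingHom) (fun c => by
      rcases eq_or_ne c 0 with rfl | hc
      · simp
      · show ν (σ i (algebraMap K F c)) ≤ 1
        rw [AlgHom.commutes, hK c hc]) (x := u⁻¹) (by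
      show 1 < ν (σ i u⁻¹)
      rw [map_inv₀, map_inv₀, hU, one_lt_inv₀ (zero_lt_iff.mpr ((Valuation.ne_zero_iff ν).mpr hU0))]
      exact (val_lt_one_iff ν hU0).mpr (by omega))
    exact ⟨w, g, hg, h⟩
  choose ρ g hg hρ using hex
  have hpos : ∀ i, 0 < (ρ i).ord u := by
    intro i
    have h := hρ i u hu0
    rw [hU, hk] at h
    have : (0 : ℤ) < g i := by exact_mod_cast hg i
    nlinarith
  have hresp : ∀ i i', r i i' → ρ i = ρ i' := fun i i' h =>
    place_ext_of_vlog (hg i) (hg i') fun f hf => by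
      rw [← hρ i f hf, ← hρ i' f hf]
      simp only [vlog, hr i i' h f]
  let ρb : Quotient r → Place K F := Quotient.lift ρ hresp
  haveI : Fintype ι := Fintype.ofFinite ι
  haveI : Fintype (Quotient r) := Fintype.ofFinite _
  let s : Finset (Place K F) := Finset.univ.image ρb
  have hU1 : ∀ i : ι, ν U < 1 := fun i =>
    (val_lt_one_iff ν (hU i ▸ (map_ne_zero _).mpr hu0)).mpr (by omega)
  have hs : ∀ w, w ∈ s ↔ 0 < w.ord u := by
    intro w
    constructor
    · intro hw
      obtain ⟨o, -, rfl⟩ := Finset.mem_image.mp hw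
      induction o using Quotient.inductionOn with
      | h i => exact hpos i
    · intro hw
      by_contra hws
      haveI := RR.finiteDimensional_adjoin hu
      obtain ⟨i⟩ : Nonempty ι := Finite.card_pos_iff.mp (hι ▸ Module.finrank_pos)
      obtain ⟨h, h0, hneg, hoth⟩ := exists_pole_only_at hu w
      have hreg : ∀ j, ν (σ j h) ≤ 1 := by
        intro j
        rw [val_le_one_iff, hρ j h h0]
        have hne : ρ j ≠ w := fun e => hws (Finset.mem_image.mpr ⟨⟦j⟧, Finset.mem_univ _, e⟩)
        exact Or.inr (mul_nonneg (by positivity) (hoth _ hne))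
      have := regular_of_conjugates hu ν hK σ hσ hι hU (hU1 i) hreg w hw
      omega
  have hrel : ∀ i (f : F), f ≠ 0 → (ρ i).ord u * vlog ν (σ i f) = k * (ρ i).ord f := by
    intro i f hf
    have h2 := hρ i u hu0
    rw [hU, hk] at h2
    rw [hρ i f hf, h2]
    ring
  refine ⟨s, hs, ?_, fun i => ⟨ρ i, Finset.mem_image.mpr ⟨⟦i⟧, Finset.mem_univ _, rfl⟩, hrel i⟩,
    fun w hw => ?_⟩
  swap
  · obtain ⟨o, -, rfl⟩ := Finset.mem_image.mp hw
    induction o using Quotient.inductionOn with
    | h i => exact ⟨i, hrel i⟩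
  have hdeg : ∑ w ∈ s, w.ord u = (ndeg K u : ℤ) := by
    have h := RR.sum_ord_sub_const hu 0 s (fun w => by rw [map_zero, sub_zero]; exact hs w)
    simpa using h
  have hle : ∀ i, (ρ i).ord u ≤ Nat.card {i' : ι // r i i'} := by
    intro i
    obtain ⟨π, hπ⟩ := IsDiscreteValuationRing.exists_irreducible (ρ i).toValuationSubring
    have hπ0 : (π : F) ≠ 0 := by simpa using hπ.ne_zero
    have h1 := hdiv i π hπ0
    rw [hρ i π hπ0, (ρ i).ord_coe_irreducible hπ, mul_one] at h1
    have h2 := hρ i u hu0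
    rw [hU, hk] at h2
    rw [h2, mul_comm (g i : ℤ)] at h1
    have hgne : (g i : ℤ) ≠ 0 := by have := hg i; omega
    refine Int.le_of_dvd ?_ ((mul_dvd_mul_iff_right hgne).mp h1)
    have hne : Nonempty {i' : ι // r i i'} := ⟨⟨i, r.refl i⟩⟩
    exact_mod_cast Finite.card_pos_iff.mpr hne
  let sz : Quotient r → ℕ := fun o => Nat.card {i : ι // (⟦i⟧ : Quotient r) = o}
  have hle' : ∀ o, (ρb o).ord u ≤ sz o := by
    intro o
    induction o using Quotient.inductionOn with
    | h i =>
      refine (hle i).trans (le_of_eq ?_)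
      congr 1
      exact Nat.card_congr (Equiv.subtypeEquivRight fun j =>
        ⟨fun h => Quotient.sound (r.symm h), fun h => r.symm (Quotient.exact h)⟩)
  have hsz : ∑ o, (sz o : ℤ) = ndeg K u := by
    rw [← hι, ← Nat.card_congr (Equiv.sigmaFiberEquiv (fun i : ι => (⟦i⟧ : Quotient r))),
      Nat.card_sigma, Nat.cast_sum]
  have hfib : ∑ o, (ρb o).ord u =
      ∑ w ∈ s, ((Finset.univ.filter fun o => ρb o = w).card : ℤ) * w.ord u := by
    rw [← Finset.sum_fiberwise_of_maps_to (g := ρb) (t := s)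
      (fun o ho => Finset.mem_image_of_mem _ ho)]
    refine Finset.sum_congr rfl fun w _ => ?_
    rw [Finset.sum_congr rfl (fun o ho => by rw [(Finset.mem_filter.mp ho).2]),
      Finset.sum_const, nsmul_eq_mul]
  have hone : ∀ w ∈ s, (Finset.univ.filter fun o => ρb o = w).card = 1 := by
    have hge : ∀ w ∈ s, w.ord u ≤
        ((Finset.univ.filter fun o => ρb o = w).card : ℤ) * w.ord u := by
      intro w hw
      refine le_mul_of_one_le_left ((hs w).mp hw).le ?_
      obtain ⟨o, -, ho⟩ := Finset.mem_image.mp hw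
      exact_mod_cast Finset.card_pos.mpr ⟨o, Finset.mem_filter.mpr ⟨Finset.mem_univ _, ho⟩⟩
    have htot := hfib ▸ (Finset.sum_le_sum fun o (_ : o ∈ Finset.univ) => hle' o).trans_eq hsz
    intro w hw
    have heq := (Finset.sum_eq_sum_iff_of_le hge).mp
      (le_antisymm (Finset.sum_le_sum hge) (htot.trans_eq hdeg.symm)) w hw
    have hp := (hs w).mp hw
    have : ((Finset.univ.filter fun o => ρb o = w).card : ℤ) = 1 := by
      refine mul_right_cancel₀ hp.ne' ?_
      linarith
    exact_mod_cast this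
  have hcard := Finset.card_eq_sum_card_fiberwise (s := (Finset.univ : Finset (Quotient r)))
    (t := s) (f := ρb) (fun o ho => Finset.mem_image_of_mem _ ho)
  rw [Finset.sum_congr rfl hone, Finset.sum_const, smul_eq_mul, mul_one, Finset.card_univ] at hcard
  rw [Nat.card_eq_fintype_card, hcard]

end Fibre

end FLTAgent.Genus
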