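import Mathlib.Analysis.Meromorphic.Order
import Mathlib.Analysis.Complex.Basic
import Mathlib.RingTheory.Valuation.Basic
import Mathlib.Order.Filter.FilterProduct
import Mathlib.GroupTheory.OrderOfElement

/-!
Field of germs of meromorphic functions at a point, with the valuation given by the order.
-/

set_option autoImplicit false

noncomputable section

open Filter Topology WithZero

namespace FLTAgent.Genus

/-- germs at `z₀` (punctured) of meromorphic functions -/
def meroGermAlg (z₀ : ℂ) : Subring (Germ (𝓝[≠] z₀) ℂ) where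
  carrier := {g | ∃ f : ℂ → ℂ, MeromorphicAt f z₀ ∧ g = (f : Germ (𝓝[≠] z₀) ℂ)}
  mul_mem' := by
    rintro _ _ ⟨f, hf, rfl⟩ ⟨g, hg, rfl⟩
    exact ⟨f * g, hf.mul hg, rfl⟩
  add_mem' := by
    rintro _ _ ⟨f, hf, rfl⟩ ⟨g, hg, rfl⟩
    exact ⟨f + g, hf.add hg, rfl⟩
  zero_mem' := ⟨fun _ => 0, MeromorphicAt.const 0 z₀, rfl⟩
  one_mem' := ⟨fun _ => 1, MeromorphicAt.const 1 z₀, rfl⟩
  neg_mem' := by
    rintro _ ⟨f, hf, rfl⟩
    exact ⟨-f, hf.neg, rfl⟩

/-- the field of meromorphic germs -/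
abbrev MeroGerm (z₀ : ℂ) : Type := ↥(meroGermAlg z₀)

variable {z₀ : ℂ}

/-- the germ of a meromorphic function -/
def germOf (f : ℂ → ℂ) (hf : MeromorphicAt f z₀) : MeroGerm z₀ := ⟨(f : Germ (𝓝[≠] z₀) ℂ), f, hf, rfl⟩

theorem germOf_eq_iff {f g : ℂ → ℂ} (hf : MeromorphicAt f z₀) (hg : MeromorphicAt g z₀) :
    germOf f hf = germOf g hg ↔ f =ᶠ[𝓝[≠] z₀] g := by
  rw [germOf, germOf, Subtype.ext_iff]
  exact Germ.coe_eq

instance meroGermAlgebra : Algebra ℂ (MeroGerm z₀) :=
  RingHom.toAlgebra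
    { toFun := fun c => germOf (fun _ => c) (MeromorphicAt.const c z₀)
      map_one' := rfl
      map_mul' := fun _ _ => rfl
      map_zero' := rfl
      map_add' := fun _ _ => rfl }

theorem germOf_surjective (x : MeroGerm z₀) : ∃ f hf, germOf f hf = x := by
  obtain ⟨_, f, hf, rfl⟩ := x
  exact ⟨f, hf, rfl⟩

theorem germOf_eq_zero_iff {f : ℂ → ℂ} (hf : MeromorphicAt f z₀) :
    germOf f hf = 0 ↔ meromorphicOrderAt f z₀ = ⊤ := by
  rw [meromorphicOrderAt_eq_top_iff, germOf, Subtype.ext_iff]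
  exact Germ.coe_eq (f := f) (g := 0)

theorem germOf_mul {f g : ℂ → ℂ} (hf : MeromorphicAt f z₀) (hg : MeromorphicAt g z₀) :
    germOf f hf * germOf g hg = germOf (f * g) (hf.mul hg) := rfl

theorem germOf_add {f g : ℂ → ℂ} (hf : MeromorphicAt f z₀) (hg : MeromorphicAt g z₀) :
    germOf f hf + germOf g hg = germOf (f + g) (hf.add hg) := rfl

theorem algebraMap_eq_germOf (c : ℂ) :
    algebraMap ℂ (MeroGerm z₀) c = germOf (fun _ => c) (MeromorphicAt.const c z₀) := rfl

theorem meroGerm_isField : IsField (MeroGerm z₀) where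
  exists_pair_ne := by
    refine ⟨0, 1, fun h => ?_⟩
    have h1 : (fun _ : ℂ => (0 : ℂ)) =ᶠ[𝓝[≠] z₀] fun _ => 1 :=
      Germ.coe_eq.mp (congrArg Subtype.val h)
    obtain ⟨z, hz⟩ := h1.exists
    exact zero_ne_one hz
  mul_comm := mul_comm
  mul_inv_cancel := by
    intro x hx
    obtain ⟨f, hf, rfl⟩ := germOf_surjective x
    have hne : meromorphicOrderAt f z₀ ≠ ⊤ := fun h => hx ((germOf_eq_zero_iff hf).mpr h)
    refine ⟨germOf f⁻¹ hf.inv, Subtype.ext (Germ.coe_eq.mpr ?_)⟩
    filter_upwards [(meromorphicOrderAt_ne_top_iff_eventually_ne_zero hf).mp hne] with z hz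
    exact mul_inv_cancel₀ hz

instance meroGermField : Field (MeroGerm z₀) := meroGerm_isField.toField

open scoped Classical in
/-- the valuation on germs, from the order -/
def ordVal (z₀ : ℂ) : Valuation (MeroGerm z₀) ℤᵐ⁰ where
  toFun x := if x = 0 then 0 else
    exp (-(meromorphicOrderAt (germOf_surjective x).choose z₀).untop₀)
  map_zero' := by simp
  map_one' := by
    rw [if_neg one_ne_zero]
    have h := (germOf_surjective (1 : MeroGerm z₀)).choose_spec
    obtain ⟨hf, he⟩ := h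
    have : (germOf_surjective (1 : MeroGerm z₀)).choose =ᶠ[𝓝[≠] z₀] fun _ => 1 :=
      (germOf_eq_iff hf (MeromorphicAt.const 1 z₀)).mp he
    rw [meromorphicOrderAt_congr this, meromorphicOrderAt_const]
    simp
  map_mul' x y := by
    rcases eq_or_ne x 0 with rfl | hx
    · simp
    rcases eq_or_ne y 0 with rfl | hy
    · simp
    rw [if_neg hx, if_neg hy, if_neg (mul_ne_zero hx hy), ← exp_add]
    obtain ⟨hf, he⟩ := (germOf_surjective x).choose_spec
    obtain ⟨hg, he'⟩ := (germOf_surjective y).choose_spec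
    obtain ⟨hh, he''⟩ := (germOf_surjective (x * y)).choose_spec
    have : (germOf_surjective (x * y)).choose =ᶠ[𝓝[≠] z₀]
        (germOf_surjective x).choose * (germOf_surjective y).choose :=
      (germOf_eq_iff hh (hf.mul hg)).mp (by rw [he'', ← germOf_mul hf hg, he, he'])
    rw [meromorphicOrderAt_congr this, meromorphicOrderAt_mul hf hg, WithTop.untop₀_add]
    · congr 1; ring
    · exact fun h => hx (he ▸ (germOf_eq_zero_iff hf).mpr h)
    · exact fun h => hy (he' ▸ (germOf_eq_zero_iff hg).mpr h)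
  map_add_le_max' x y := by
    rcases eq_or_ne x 0 with rfl | hx
    · simp
    rcases eq_or_ne y 0 with rfl | hy
    · simp
    rcases eq_or_ne (x + y) 0 with hxy | hxy
    · rw [if_pos hxy]; exact zero_le
    rw [if_neg hx, if_neg hy, if_neg hxy]
    obtain ⟨hf, he⟩ := (germOf_surjective x).choose_spec
    obtain ⟨hg, he'⟩ := (germOf_surjective y).choose_spec
    obtain ⟨hh, he''⟩ := (germOf_surjective (x + y)).choose_spec
    have h1 : (germOf_surjective (x + y)).choose =ᶠ[𝓝[≠] z₀]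
        (germOf_surjective x).choose + (germOf_surjective y).choose :=
      (germOf_eq_iff hh (hf.add hg)).mp (by rw [he'', ← germOf_add hf hg, he, he'])
    have h2 := meromorphicOrderAt_add hf hg
    rw [← meromorphicOrderAt_congr h1] at h2
    obtain ⟨a, ha⟩ := WithTop.ne_top_iff_exists.mp
      (fun h => hx (he ▸ (germOf_eq_zero_iff hf).mpr h))
    obtain ⟨b, hb⟩ := WithTop.ne_top_iff_exists.mp
      (fun h => hy (he' ▸ (germOf_eq_zero_iff hg).mpr h))
    obtain ⟨c, hc⟩ := WithTop.ne_top_iff_exists.mp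
      (fun h => hxy (he'' ▸ (germOf_eq_zero_iff hh).mpr h))
    rw [← ha, ← hb, ← hc, ← WithTop.coe_min, WithTop.coe_le_coe] at h2
    rw [← ha, ← hb, ← hc, WithTop.untop₀_coe, WithTop.untop₀_coe, WithTop.untop₀_coe,
      le_max_iff, exp_le_exp, exp_le_exp]
    omega

open scoped Classical in
theorem ordVal_germOf {f : ℂ → ℂ} (hf : MeromorphicAt f z₀) {n : ℤ}
    (hn : meromorphicOrderAt f z₀ = n) : ordVal z₀ (germOf f hf) = exp (-n) := by
  have h0 : germOf f hf ≠ 0 := fun h => by simp [(germOf_eq_zero_iff hf).mp h] at hn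
  show (if _ then _ else _) = _
  rw [if_neg h0]
  obtain ⟨hg, he⟩ := (germOf_surjective (germOf f hf)).choose_spec
  rw [meromorphicOrderAt_congr ((germOf_eq_iff hg hf).mp he), hn, WithTop.untop₀_coe]

theorem ordVal_algebraMap {c : ℂ} (hc : c ≠ 0) :
    ordVal z₀ (algebraMap ℂ (MeroGerm z₀) c) = 1 := by
  classical
  rw [algebraMap_eq_germOf, ordVal_germOf _ (n := 0)
    (by rw [meromorphicOrderAt_const]; simp [hc]), neg_zero, exp_zero]

/-- the order of a germ -/
theorem log_ordVal_germOf {f : ℂ → ℂ} (hf : MeromorphicAt f z₀) :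
    -(WithZero.log (ordVal z₀ (germOf f hf))) = (meromorphicOrderAt f z₀).untop₀ := by
  rcases eq_or_ne (meromorphicOrderAt f z₀) ⊤ with h | h
  · rw [(germOf_eq_zero_iff hf).mpr h, map_zero, h]
    simp
  · obtain ⟨n, hn⟩ := WithTop.ne_top_iff_exists.mp h
    rw [ordVal_germOf hf hn.symm, log_exp, neg_neg, ← hn, WithTop.untop₀_coe]

/-- A function invariant under `R z = z₀ + (z - z₀) u z`, with `u z₀ = ζ`, has order divisible
by the order of `ζ`. -/
theorem orderOf_dvd_meromorphicOrderAt {f u : ℂ → ℂ} (hu : AnalyticAt ℂ u z₀) (hu0 : u z₀ ≠ 0)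
    (hf : MeromorphicAt f z₀)
    (hinv : ∀ᶠ z in 𝓝[≠] z₀, f (z₀ + (z - z₀) * u z) = f z) :
    (orderOf (u z₀) : ℤ) ∣ (meromorphicOrderAt f z₀).untop₀ := by
  rcases eq_or_ne (meromorphicOrderAt f z₀) ⊤ with h | h
  · simp [h]
  obtain ⟨g, hg, hg0, heq⟩ := (meromorphicOrderAt_ne_top_iff hf).mp h
  set n := (meromorphicOrderAt f z₀).untop₀
  set R : ℂ → ℂ := fun z => z₀ + (z - z₀) * u z with hR
  have hR0 : R z₀ = z₀ := by simp [hR]
  have hRan : AnalyticAt ℂ R z₀ := by simp only [hR]; fun_prop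
  have hne : ∀ᶠ z in 𝓝[≠] z₀, u z ≠ 0 :=
    eventually_nhdsWithin_of_eventually_nhds (hu.continuousAt.eventually_ne hu0)
  have hRt : Tendsto R (𝓝[≠] z₀) (𝓝[≠] z₀) := by
    refine tendsto_nhdsWithin_iff.mpr ⟨?_, ?_⟩
    · have h1 : Tendsto R (𝓝 z₀) (𝓝 (R z₀)) := hRan.continuousAt
      rw [hR0] at h1
      exact h1.mono_left nhdsWithin_le_nhds
    · filter_upwards [hne, self_mem_nhdsWithin] with z hz hz'
      simp only [hR, Set.mem_compl_iff, Set.mem_singleton_iff, add_eq_left]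
      exact mul_ne_zero (sub_ne_zero.mpr hz') hz
  have h2 : ∀ᶠ z in 𝓝[≠] z₀, u z ^ n * g (R z) = g z := by
    filter_upwards [heq, hRt.eventually heq, hinv, self_mem_nhdsWithin] with z h1 h2 h3 hz'
    change f (R z) = f z at h3
    rw [h3, h1, smul_eq_mul, smul_eq_mul, show R z - z₀ = (z - z₀) * u z by simp [hR],
      mul_zpow, mul_assoc] at h2
    exact (mul_left_cancel₀ (zpow_ne_zero _ (sub_ne_zero.mpr hz')) h2).symm
  have c1 : ContinuousAt (fun z => u z ^ n * g (R z)) z₀ := by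
    refine (hu.continuousAt.zpow₀ n (Or.inl hu0)).mul ?_
    have : ContinuousAt g (R z₀) := by rw [hR0]; exact hg.continuousAt
    exact this.comp hRan.continuousAt
  have h3 := tendsto_nhds_unique
    ((c1.tendsto.mono_left nhdsWithin_le_nhds).congr' h2)
    (hg.continuousAt.tendsto.mono_left (nhdsWithin_le_nhds (s := {z₀}ᶜ)))
  rw [hR0] at h3
  rw [← Units.val_mk0 hu0, orderOf_units, orderOf_dvd_iff_zpow_eq_one]
  refine Units.ext ?_
  rw [Units.val_zpow_eq_zpow_val, Units.val_one, Units.val_mk0]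
  exact mul_right_cancel₀ hg0 (by rw [one_mul]; exact h3)

end FLTAgent.Genus
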