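import Fermat.Agent.Genus.Points
import Fermat.Prelude.Def_ModularCurve_GenusNumerics

/-!
The places of `modularFunctionFieldBar N` over each value of `j`, and the genus.
-/

set_option autoImplicit false

noncomputable section

open ModularCurve Filter Topology UpperHalfPlane CongruenceSubgroup ModularGroup AlgebraicCurve
open scoped MatrixGroups Manifold

namespace FLTAgent.Genus

open FLTAgent.ModFun

section Orbits

variable {G X : Type*} [Group G] [MulAction G X]

theorem card_class (γ : G) (i : X) :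
    Nat.card {i' : X // MulAction.orbitRel (Subgroup.zpowers γ) X i i'}
      = Function.minimalPeriod (fun x => γ • x) i := by
  have h : ∀ i', MulAction.orbitRel (Subgroup.zpowers γ) X i i' ↔
      i' ∈ MulAction.orbit (Subgroup.zpowers γ) i := fun i' =>
    ⟨fun h => Setoid.symm' _ h, fun h => Setoid.symm' _ h⟩
  rw [Nat.card_congr ((Equiv.subtypeEquivRight h).trans (MulAction.orbitZPowersEquiv γ i)),
    Nat.card_zmod]

theorem smul_pow_minimalPeriod (γ : G) (i : X) :
    (γ ^ (Function.minimalPeriod (fun x => γ • x) i : ℕ)) • i = i := by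
  rw [← smul_iterate_apply]
  exact Function.isPeriodicPt_minimalPeriod _ i

theorem minimalPeriod_dvd {γ : G} {k : ℕ} (hk : ∀ x : X, γ ^ k • x = x) (i : X) :
    Function.minimalPeriod (fun x => γ • x) i ∣ k := by
  refine Function.IsPeriodicPt.minimalPeriod_dvd ?_
  show (fun x => γ • x)^[k] i = i
  rw [smul_iterate_apply, hk]

/-- `k · #orbits = #X + (k - 1) · #fixed` for an element of prime order `k`. -/
theorem card_orbits_prime [Finite X] {γ : G} {k : ℕ} (hk : k.Prime) (hγ : ∀ x : X, γ ^ k • x = x) :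
    k * Nat.card (MulAction.orbitRel.Quotient (Subgroup.zpowers γ) X) =
      Nat.card X + (k - 1) * Nat.card (MulAction.fixedBy X γ) := by
  classical
  haveI := Fintype.ofFinite X
  haveI := Fintype.ofFinite (MulAction.orbitRel.Quotient (Subgroup.zpowers γ) X)
  let q : X → MulAction.orbitRel.Quotient (Subgroup.zpowers γ) X := fun x => Quotient.mk'' x
  have hfib : ∀ o, k = (Finset.univ.filter fun x => q x = o).card +
      (k - 1) * (Finset.univ.filter fun x : X => q x = o ∧ γ • x = x).card := by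
    intro o
    obtain ⟨i, rfl⟩ := Quotient.mk''_surjective (s₁ := MulAction.orbitRel (Subgroup.zpowers γ) X) o
    have hcl : (Finset.univ.filter fun x => q x = q i).card =
        Function.minimalPeriod (fun x => γ • x) i := by
      rw [← card_class γ i, ← Fintype.card_subtype, ← Nat.card_eq_fintype_card]
      exact Nat.card_congr (Equiv.subtypeEquivRight fun x =>
        ⟨fun h => Setoid.symm' _ (Quotient.eq''.mp h), fun h => Quotient.eq''.mpr (Setoid.symm' _ h)⟩)
    have hfix : ∀ x, γ • x = x → q x = q i → x = i := by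
      intro x hx h
      obtain ⟨⟨_, n, rfl⟩, hn⟩ := (Setoid.symm' _ (Quotient.eq''.mp h) :
        MulAction.orbitRel (Subgroup.zpowers γ) X i x)
      change γ ^ n • x = i at hn
      rw [← hn]
      exact (MulAction.mem_fixedBy_zpow (g := γ) hx n).symm
    show k = _
    rcases hk.eq_one_or_self_of_dvd _ (minimalPeriod_dvd hγ i) with h1 | h1
    · have hi : γ • i = i := Function.minimalPeriod_eq_one_iff_isFixedPt.mp h1
      have : (Finset.univ.filter fun x : X => q x = q i ∧ γ • x = x) = {i} := by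
        ext x
        simp only [Finset.mem_filter, Finset.mem_univ, true_and, Finset.mem_singleton]
        exact ⟨fun h => hfix x h.2 h.1, fun h => by subst h; exact ⟨rfl, hi⟩⟩
      rw [this, hcl, h1, Finset.card_singleton, mul_one]
      have := hk.one_lt
      omega
    · have : (Finset.univ.filter fun x : X => q x = q i ∧ γ • x = x) = ∅ := by
        refine Finset.filter_eq_empty_iff.mpr fun x _ hx => ?_
        have hxi := hfix x hx.2 hx.1
        rw [hxi] at hx
        exact hk.one_lt.ne' (h1 ▸ Function.minimalPeriod_eq_one_iff_isFixedPt.mpr hx.2)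
      rw [this, hcl, h1]
      simp
  have hsum := Finset.sum_congr (s₁ := Finset.univ) rfl (fun o _ => hfib o)
  rw [Finset.sum_add_distrib, ← Finset.mul_sum, Finset.sum_const, Finset.card_univ,
    smul_eq_mul, mul_comm (Fintype.card _) k] at hsum
  rw [Nat.card_eq_fintype_card, hsum, Nat.card_eq_fintype_card (α := X),
    ← Finset.card_univ (α := X),
    Finset.card_eq_sum_card_fiberwise (f := q) (t := Finset.univ) (fun x _ => Finset.mem_univ _)]
  congr 2
  have hf : Nat.card (MulAction.fixedBy X γ) =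
      (Finset.univ.filter fun x : X => γ • x = x).card := by
    rw [Nat.card_eq_fintype_card, ← Fintype.card_subtype]
    exact Fintype.card_congr (Equiv.subtypeEquivRight fun x => Iff.rfl)
  rw [hf, Finset.card_eq_sum_card_fiberwise (f := q) (t := Finset.univ)
    (fun x _ => Finset.mem_univ _)]
  refine Finset.sum_congr rfl fun o _ => ?_
  rw [Finset.filter_filter]
  exact congrArg Finset.card (Finset.filter_congr fun x _ => and_comm)

end Orbits

variable (N : ℕ) [NeZero N]

/-- `ℚ̄(X₀(N))` -/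
abbrev FN : Type := ↥(modularFunctionFieldBar N)

theorem adjoin_eq_of_mem {x y : (FN N)} (hxy : x ∈ IntermediateField.adjoin Qbar ({y} : Set (FN N)))
    (hyx : y ∈ IntermediateField.adjoin Qbar ({x} : Set (FN N))) :
    IntermediateField.adjoin Qbar ({x} : Set (FN N)) = IntermediateField.adjoin Qbar ({y} : Set (FN N)) :=
  le_antisymm (IntermediateField.adjoin_simple_le_iff.mpr hxy)
    (IntermediateField.adjoin_simple_le_iff.mpr hyx)

theorem ndeg_congr {x y : (FN N)}
    (h : IntermediateField.adjoin Qbar ({x} : Set (FN N)) = IntermediateField.adjoin Qbar ({y} : Set (FN N))) :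
    RR.ndeg Qbar x = RR.ndeg Qbar y := by
  unfold RR.ndeg
  rw [h]

theorem ndeg_sub_const (c : Qbar) :
    RR.ndeg Qbar (jBar N - algebraMap Qbar (FN N) c) = dedekindPsi N := by
  rw [← card_cosetSpace N, ← ndeg_jBar N]
  refine ndeg_congr N (adjoin_eq_of_mem N ?_ ?_)
  · exact sub_mem (IntermediateField.mem_adjoin_simple_self _ _)
      (IntermediateField.algebraMap_mem _ _)
  · have h := add_mem (IntermediateField.mem_adjoin_simple_self Qbar (jBar N - algebraMap Qbar (FN N) c))
      (IntermediateField.algebraMap_mem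
        (IntermediateField.adjoin Qbar ({jBar N - algebraMap Qbar (FN N) c} : Set (FN N))) c)
    rwa [sub_add_cancel] at h

theorem ndeg_inv : RR.ndeg Qbar (jBar N)⁻¹ = dedekindPsi N := by
  rw [← card_cosetSpace N, ← ndeg_jBar N]
  refine ndeg_congr N (adjoin_eq_of_mem N (inv_mem (IntermediateField.mem_adjoin_simple_self _ _)) ?_)
  have h := inv_mem (IntermediateField.mem_adjoin_simple_self Qbar (jBar N)⁻¹)
  rwa [inv_inv] at h

theorem transcendental_sub_const (c : Qbar) :
    Transcendental Qbar (jBar N - algebraMap Qbar (FN N) c) := fun h => transcendental_jBar N (by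
  have := h.add (isAlgebraic_algebraMap c)
  rwa [sub_add_cancel] at this)

theorem transcendental_inv : Transcendental Qbar (jBar N)⁻¹ := fun h =>
  transcendental_jBar N (by simpa using h.inv)

/-- `1` as a divisor of `N` -/
def oneDiv : N.divisors := ⟨1, Nat.one_mem_divisors.mpr (NeZero.ne N)⟩

theorem gen_oneDiv : gen N (oneDiv N) = jBar N := by
  refine Subtype.ext ?_
  show coeffEmb Qbar (qExpand ℚ (1 : ℕ) jq) = coeffEmb Qbar jq
  rw [qExpand_one_apply]

theorem sigma_jBar_interior (τ₀ : ℍ) (i : CosetSpace N) :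
    (interiorChart N τ₀).sigma i (jBar N) =
      germOf (fun z => jFun (ofComplex z))
        ((analyticOnNhd_ofComplex mdiff_jFun) _ τ₀.im_pos).meromorphicAt := by
  rw [← gen_oneDiv, Chart.sigma_gen]
  exact (germOf_eq_iff (z₀ := (τ₀ : ℂ)) _ _).mpr (Eventually.of_forall fun z => conjJ_one _ _)

/-- fibre over a finite value -/
theorem fibre_finite (τ₀ : ℍ) (c : Qbar) (hc : embC c = jFun τ₀) {k : ℕ} (hk0 : 0 < k)
    (hk : analyticOrderAt (fun z => jFun (ofComplex z) - jFun τ₀) τ₀ = k)
    (γ : SL(2, ℤ)) (hfix : γ • τ₀ = τ₀) (hγk : ∀ i : CosetSpace N, γ ^ k • i = i)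
    (hord : k = 1 ∨ k.Prime ∧ orderOf ((cden γ τ₀ * cden γ τ₀)⁻¹ : ℂ) = k) :
    ∃ s : Finset (Place Qbar (FN N)),
      (∀ w, w ∈ s ↔ 0 < w.ord (jBar N - algebraMap Qbar (FN N) c)) ∧
      s.card = Nat.card (MulAction.orbitRel.Quotient (Subgroup.zpowers γ) (CosetSpace N)) ∧
      ∀ i, ∃ w ∈ s, ∀ h : (FN N), h ≠ 0 →
        w.ord (jBar N - algebraMap Qbar (FN N) c) *
          vlog (ordVal (τ₀ : ℂ)) ((interiorChart N τ₀).sigma i h) = k * w.ord h := by
  set C := interiorChart N τ₀ with hC
  have han : AnalyticAt ℂ (fun z => jFun (ofComplex z) - jFun τ₀) τ₀ :=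
    ((analyticOnNhd_ofComplex mdiff_jFun) _ τ₀.im_pos).sub analyticAt_const
  have hU : ∀ i, C.sigma i (jBar N - algebraMap Qbar (FN N) c) = germOf _ han.meromorphicAt := by
    intro i
    rw [map_sub, AlgHom.commutes]
    show @id (MeroGerm (τ₀ : ℂ)) ((interiorChart N τ₀).sigma i (jBar N)) - algebraMap ℂ (MeroGerm (τ₀ : ℂ)) (embC c) = _
    rw [sigma_jBar_interior, hc, algebraMap_eq_germOf, sub_eq_add_neg]
    simp only [id_eq]
    rfl
  have hUv : vlog (ordVal C.pt) (germOf _ han.meromorphicAt) = k := by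
    rw [vlog, log_ordVal_germOf]
    show (meromorphicOrderAt _ (τ₀ : ℂ)).untop₀ = _
    rw [AnalyticAt.meromorphicOrderAt_eq han]
    show (WithTop.map _ (analyticOrderAt _ (τ₀ : ℂ))).untop₀ = _
    rw [hk]
    rfl
  have hsym := interior_sym (N := N) hfix
  obtain ⟨s, hs, hcard, hpl, -⟩ := fibre (K := Qbar) (transcendental_sub_const N c) (ordVal C.pt)
    (fun d hd => ordVal_algebraMap_qbar hd) C.sigma C.sigma_injective
    (by rw [card_cosetSpace, ndeg_sub_const]) hU hUv hk0
    (MulAction.orbitRel (Subgroup.zpowers γ) (CosetSpace N))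
    (fun i i' h x => hsym.val_orbit h x)
    (fun i x _ => by
      erw [card_class]
      rcases hord with rfl | ⟨hp, hu⟩
      · simp
      rcases hp.eq_one_or_self_of_dvd _ (minimalPeriod_dvd hγk i) with h1 | h1
      · have hi : γ • i = i := Function.minimalPeriod_eq_one_iff_isFixedPt.mp h1
        have := hsym.dvd_vlog hi x
        rw [h1, Nat.cast_one, one_mul, ← hu]
        exact this
      · rw [h1]
        exact dvd_mul_right _ _)
  exact ⟨s, hs, hcard, hpl⟩

theorem ST_cube_smul (i : CosetSpace N) : (S * T) ^ 3 • i = i := by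
  have h : (S * T) ^ 3 = (-1 : SL(2, ℤ)) := by decide
  rw [h, neg_one_smul_coset]

theorem S_sq_smul (i : CosetSpace N) : S ^ 2 • i = i := by
  have h : S ^ 2 = (-1 : SL(2, ℤ)) := by decide
  rw [h, neg_one_smul_coset]

theorem fibre_zero :
    ∃ s : Finset (Place Qbar (FN N)), (∀ w, w ∈ s ↔ 0 < w.ord (jBar N - algebraMap Qbar (FN N) 0)) ∧
      3 * s.card = dedekindPsi N + 2 * nuThree N := by
  have hρ3 : (UpperHalfPlane.ρ : ℂ) ^ 3 = 1 := by
    have := UpperHalfPlane.ρ_sq
    linear_combination ((UpperHalfPlane.ρ : ℂ) - 1) * this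
  have hne : (UpperHalfPlane.ρ : ℂ) ≠ 1 := by
    intro h
    have := congrArg Complex.im h
    simp [UpperHalfPlane.ρ] at this
  obtain ⟨s, hs, hc, -⟩ := fibre_finite N UpperHalfPlane.ρ 0 (by rw [map_zero, jFun_rho]) (k := 3)
    (by norm_num) (by
      have := analyticOrderAt_jFun_sub_rho 1
      rw [one_smul] at this
      simpa [jFun_rho] using this)
    (S * T) ST_smul_rho (ST_cube_smul N) (Or.inr ⟨Nat.prime_three, by
      rw [← sq, cden_ST]
      have : ((UpperHalfPlane.ρ : ℂ) ^ 2)⁻¹ = UpperHalfPlane.ρ := by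
        refine inv_eq_of_mul_eq_one_right ?_
        rw [← pow_succ, hρ3]
      rw [this]
      exact orderOf_eq_prime hρ3 hne⟩)
  refine ⟨s, hs, ?_⟩
  rw [hc]
  refine (card_orbits_prime (X := CosetSpace N) Nat.prime_three (ST_cube_smul N)).trans ?_
  rw [card_cosetSpace, card_fixedBy_U]

theorem fibre_1728 :
    ∃ s : Finset (Place Qbar (FN N)), (∀ w, w ∈ s ↔ 0 < w.ord (jBar N - algebraMap Qbar (FN N) 1728)) ∧
      2 * s.card = dedekindPsi N + nuTwo N := by
  obtain ⟨s, hs, hc, -⟩ := fibre_finite N UpperHalfPlane.I 1728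
    (by rw [map_ofNat, jFun_I]) (k := 2) (by norm_num) (by
      have := analyticOrderAt_jFun_sub_I 1
      rw [one_smul] at this
      simpa [jFun_I] using this)
    S S_smul_I (S_sq_smul N) (Or.inr ⟨Nat.prime_two, by
      rw [← sq, cden_S]
      simp [orderOf_neg_one, ringChar.eq_zero]⟩)
  refine ⟨s, hs, ?_⟩
  rw [hc]
  refine (card_orbits_prime (X := CosetSpace N) Nat.prime_two (S_sq_smul N)).trans ?_
  rw [card_cosetSpace, card_fixedBy_S]
  simp

theorem fibre_generic (c : Qbar) (h0 : c ≠ 0) (h1 : c ≠ 1728) :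
    ∃ s : Finset (Place Qbar (FN N)), (∀ w, w ∈ s ↔ 0 < w.ord (jBar N - algebraMap Qbar (FN N) c)) ∧
      s.card = dedekindPsi N := by
  obtain ⟨τ₀, hτ⟩ := jFun_surjective (embC c)
  obtain ⟨s, hs, hc, -⟩ := fibre_finite N τ₀ c hτ.symm (k := 1) Nat.one_pos (by
      refine analyticOrderAt_jFun_sub_generic ?_ ?_ <;> rw [hτ]
      · exact (map_ne_zero _).mpr h0
      · rw [← map_ofNat embC 1728]
        exact fun h => h1 (embC.injective h))
    1 (one_smul _ _) (fun i => by rw [one_pow, one_smul]) (Or.inl rfl)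
  refine ⟨s, hs, ?_⟩
  rw [hc, ← card_cosetSpace N]
  refine Nat.card_congr (Equiv.ofBijective
    (fun i => (Quotient.mk'' i : MulAction.orbitRel.Quotient (Subgroup.zpowers (1 : SL(2, ℤ)))
      (CosetSpace N))) ⟨fun a b h => ?_, Quotient.mk''_surjective⟩).symm
  obtain ⟨⟨_, n, rfl⟩, hn⟩ := Quotient.eq''.mp h
  change (1 : SL(2, ℤ)) ^ n • b = a at hn
  rw [one_zpow, one_smul] at hn
  exact hn.symm

theorem exists_uniform_pole :
    ∃ U : MeroGerm (0 : ℂ), (∀ i, (cuspChart N).sigma i (jBar N)⁻¹ = U) ∧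
      vlog (ordVal (0 : ℂ)) U = N := by
  obtain ⟨u, hu, hu0, hev⟩ := jFun_atImInfty
  have hm : AnalyticAt ℂ (fun q : ℂ => u (q ^ N)) 0 :=
    hu.comp_of_eq (by fun_prop) (by simp [zero_pow (NeZero.ne N)])
  have hJ : MeromorphicAt (fun q : ℂ => u (q ^ N) / q ^ N) 0 :=
    hm.meromorphicAt.div (by fun_prop : AnalyticAt ℂ (fun q : ℂ => q ^ N) 0).meromorphicAt
  refine ⟨(germOf _ hJ)⁻¹, fun i => ?_, ?_⟩
  · rw [map_inv₀, ← gen_oneDiv, Chart.sigma_gen]
    congr 1
    refine (germOf_eq_iff (z₀ := (0 : ℂ)) _ _).mpr (eventually_punctured_of_atImInfty (N := N) ?_)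
    filter_upwards [(cuspFun_spec (oneDiv N) i).2, hev] with τ h1 h2
    show cuspFun (oneDiv N) i _ = _
    rw [← h1]
    show conjJ 1 i.out τ = _
    rw [conjJ_one, h2]
    have : Function.Periodic.qParam N (τ : ℂ) ^ N = Function.Periodic.qParam 1 (τ : ℂ) := by
      rw [Function.Periodic.qParam, Function.Periodic.qParam, ← Complex.exp_nat_mul]
      congr 1
      have hN : (N : ℂ) ≠ 0 := by exact_mod_cast NeZero.ne N
      push_cast
      field_simp
    rw [this]
  · have hord : meromorphicOrderAt (fun q : ℂ => u (q ^ N) / q ^ N) 0 = ((-(N : ℤ)) : ℤ) := by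
      rw [meromorphicOrderAt_eq_int_iff hJ]
      refine ⟨fun q => u (q ^ N), hm, by simp [zero_pow (NeZero.ne N), hu0],
        Eventually.of_forall fun q => ?_⟩
      rw [smul_eq_mul, sub_zero, zpow_neg, zpow_natCast, inv_mul_eq_div]
    rw [vlog_inv, vlog, log_ordVal_germOf, hord, WithTop.untop₀_coe, neg_neg]

theorem fibre_infty :
    ∃ s : Finset (Place Qbar (FN N)), (∀ w, w ∈ s ↔ w.ord (jBar N) < 0) ∧ s.card = cuspCount N ∧
      ∀ i, ∃ w ∈ s, ∀ h : (FN N), h ≠ 0 →
        -w.ord (jBar N) * vlog (ordVal (0 : ℂ)) ((cuspChart N).sigma i h) = N * w.ord h := by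
  obtain ⟨U, hU, hUv⟩ := exists_uniform_pole N
  obtain ⟨s, hs, hcard, hpl, -⟩ := fibre (K := Qbar) (transcendental_inv N) (ordVal (cuspChart N).pt)
    (fun d hd => ordVal_algebraMap_qbar hd) (cuspChart N).sigma (cuspChart N).sigma_injective
    (by rw [card_cosetSpace, ndeg_inv]) hU hUv (Nat.pos_of_ne_zero (NeZero.ne N))
    (MulAction.orbitRel (Subgroup.zpowers T) (CosetSpace N))
    (fun i i' h x => by
      have h1 := cusp_sym (N := N) 1
      rw [zpow_one] at h1
      exact h1.val_orbit h x)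
    (fun i x _ => by
      erw [card_class]
      set w := Function.minimalPeriod (fun y => T • y) i
      have hwN : w ∣ N := minimalPeriod_dvd (fun y => by
        rw [← zpow_natCast, T_pow_level_smul]) i
      have hi : T ^ (w : ℤ) • i = i := by rw [zpow_natCast]; exact smul_pow_minimalPeriod T i
      have h2 := (cusp_sym (N := N) (w : ℤ)).dvd_vlog hi x
      have hprim := Complex.isPrimitiveRoot_exp N (NeZero.ne N)
      have hu : Complex.exp (-(2 * Real.pi * Complex.I * ((w : ℤ) : ℂ) / N)) =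
          (Complex.exp (2 * Real.pi * Complex.I / N) ^ w)⁻¹ := by
        rw [Complex.exp_neg, ← Complex.exp_nat_mul]
        congr 2
        push_cast
        ring
      have hw0 : w ≠ 0 := fun h => NeZero.ne N (Nat.eq_zero_of_zero_dvd (h ▸ hwN))
      have hord : orderOf (Complex.exp (-(2 * Real.pi * Complex.I * ((w : ℤ) : ℂ) / N))) = N / w := by
        rw [hu]
        obtain ⟨m, hm⟩ := hwN
        rw [hm, Nat.mul_div_cancel_left m (Nat.pos_of_ne_zero hw0), ← hm]
        exact (hprim.pow (Nat.pos_of_ne_zero (NeZero.ne N)) hm).inv.eq_orderOf.symm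
      rw [hord] at h2
      obtain ⟨b, hb⟩ := h2
      refine ⟨b, ?_⟩
      rw [hb, ← mul_assoc, ← Nat.cast_mul, Nat.mul_div_cancel' hwN])
  refine ⟨s, fun w => by rw [hs, Place.ord_inv, neg_pos], ?_, fun i => ?_⟩
  · rw [hcard, ← card_orbits_T N]
  · obtain ⟨w, hw, hwh⟩ := hpl i
    exact ⟨w, hw, fun h hh => by rw [← Place.ord_inv]; exact hwh h hh⟩

open RR in
theorem genusFF_eq [HasCanonicalDivisor (K := Qbar) (F := (FN N))] :
    (genusFF Qbar (FN N) : ℚ) = genusFormula N := by
  classical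
  have hj := transcendental_jBar N
  have hω := D_ne_zero (K := Qbar) hj
  obtain ⟨s0, hs0, hc0⟩ := fibre_zero N
  obtain ⟨s1, hs1, hc1⟩ := fibre_1728 N
  obtain ⟨s2, hs2, hc2, -⟩ := fibre_infty N
  set D := canonicalDivisorOf hω with hD
  have hdeg := degree_canonicalDivisorOf (K := Qbar) hω
  have hne : ∀ (w : Place Qbar (FN N)) (a b : Qbar), a ≠ b →
      0 < w.ord (jBar N - algebraMap Qbar (FN N) a) → ¬ 0 < w.ord (jBar N - algebraMap Qbar (FN N) b) := by
    intro w a b hab h1 h2
    have hlt : ∀ c : Qbar, 0 < w.ord (jBar N - algebraMap Qbar (FN N) c) →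
        w.adicValuation (jBar N - algebraMap Qbar (FN N) c) < 1 := by
      intro c hc
      rcases eq_or_ne (jBar N - algebraMap Qbar (FN N) c) 0 with h0 | h0
      · rw [h0] at hc; simp at hc
      · exact (val_lt_one_iff _ h0).mpr hc
    have h3 := w.adicValuation.map_sub_lt (hlt b h2) (hlt a h1)
    rw [sub_sub_sub_cancel_left, ← map_sub,
      adicValuation_algebraMap_eq_one w (sub_ne_zero.mpr hab)] at h3
    exact lt_irrefl _ h3
  have hpole : ∀ (w : Place Qbar (FN N)) (a : Qbar), w.ord (jBar N) < 0 →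
      ¬ 0 < w.ord (jBar N - algebraMap Qbar (FN N) a) := by
    intro w a h1 h2
    have hj0 : jBar N ≠ 0 := fun h => by simp [h] at h1
    have hv : ¬ w.adicValuation (jBar N) ≤ 1 := (w.not_adicValuation_le_one_iff).mpr h1
    apply hv
    rcases eq_or_ne (jBar N - algebraMap Qbar (FN N) a) 0 with h0 | h0
    · rw [sub_eq_zero.mp h0]; exact w.adicValuation_algebraMap_le_one a
    · have h3 := ((val_lt_one_iff w.adicValuation h0).mpr h2).le
      have := w.adicValuation.map_add_le h3 (w.adicValuation_algebraMap_le_one a)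
      rwa [sub_add_cancel] at this
  have hDv : ∀ v, D v = v.ordDifferential (KaehlerDifferential.D Qbar (FN N) (jBar N)) :=
    canonicalDivisorOf_apply hω
  have hDzero : ∀ (c : Qbar) (v : Place Qbar (FN N)), 0 < v.ord (jBar N - algebraMap Qbar (FN N) c) →
      D v = v.ord (jBar N - algebraMap Qbar (FN N) c) - 1 := fun c v hv => by
    rw [hDv]; exact ordDifferential_D_of_zero hj hv
  have hsupp : D.support ⊆ s0 ∪ s1 ∪ s2 := by
    intro v hv
    rw [Finsupp.mem_support_iff] at hv
    simp only [Finset.mem_union]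
    by_cases hneg : v.ord (jBar N) < 0
    · exact Or.inr ((hs2 v).mpr hneg)
    obtain ⟨c, hc⟩ := exists_const_ord_pos (not_lt.mp hneg)
    rcases hc with hc | hc
    · exact absurd (hc ▸ isAlgebraic_algebraMap c) hj
    rcases eq_or_ne c 0 with rfl | h0
    · exact Or.inl (Or.inl ((hs0 v).mpr hc))
    rcases eq_or_ne c 1728 with rfl | h1
    · exact Or.inl (Or.inr ((hs1 v).mpr hc))
    exfalso
    obtain ⟨s, hs, hcard⟩ := fibre_generic N c h0 h1
    have hsum := sum_ord_sub_const hj c s hs
    rw [ndeg_jBar, card_cosetSpace, ← hcard] at hsum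
    have h1' : ∀ w ∈ s, (1 : ℤ) ≤ w.ord (jBar N - algebraMap Qbar (FN N) c) := fun w hw => (hs w).mp hw
    have heq := (Finset.sum_eq_sum_iff_of_le h1').mp
      (by rw [hsum, Finset.sum_const, nsmul_eq_mul, mul_one]) v ((hs v).mpr hc)
    exact hv (by rw [hDzero c v hc, ← heq, sub_self])
  have hdeg' : Divisor.degree D = ∑ v ∈ s0 ∪ s1 ∪ s2, D v := by
    show Finsupp.liftAddHom (fun v : Place Qbar (FN N) => AddMonoidHom.mulRight (v.deg : ℤ)) D = _
    rw [Finsupp.liftAddHom_apply, Finsupp.sum_of_support_subset D hsupp _ (by simp)]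
    exact Finset.sum_congr rfl fun v _ => by simp [RR.deg_eq_one]
  have hdisj1 : Disjoint s0 s1 := Finset.disjoint_left.mpr fun v h0 h1 =>
    hne v 0 1728 (by norm_num) ((hs0 v).mp h0) ((hs1 v).mp h1)
  have hdisj2 : Disjoint (s0 ∪ s1) s2 := Finset.disjoint_left.mpr fun v h h2 => by
    rcases Finset.mem_union.mp h with h | h
    · exact hpole v 0 ((hs2 v).mp h2) ((hs0 v).mp h)
    · exact hpole v 1728 ((hs2 v).mp h2) ((hs1 v).mp h)
  have hS : ∀ (c : Qbar) (s : Finset (Place Qbar (FN N))),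
      (∀ w, w ∈ s ↔ 0 < w.ord (jBar N - algebraMap Qbar (FN N) c)) →
      ∑ v ∈ s, D v = (dedekindPsi N : ℤ) - s.card := by
    intro c s hs
    rw [Finset.sum_congr rfl fun v hv => hDzero c v ((hs v).mp hv), Finset.sum_sub_distrib,
      sum_ord_sub_const hj c s hs, ndeg_jBar, card_cosetSpace]
    simp
  have hS2 : ∑ v ∈ s2, D v = -(dedekindPsi N : ℤ) - s2.card := by
    rw [Finset.sum_congr rfl fun v hv => show D v = v.ord (jBar N) - 1 by
      rw [hDv]; exact ordDifferential_D_of_pole hj ((hs2 v).mp hv), Finset.sum_sub_distrib]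
    have h2 := sum_ord_poles hj s2 hs2
    rw [Finset.sum_neg_distrib, ndeg_jBar, card_cosetSpace] at h2
    simp only [Finset.sum_const, nsmul_eq_mul, mul_one]
    linear_combination (-1 : ℤ) * h2
  rw [← hD, hdeg', Finset.sum_union hdisj2, Finset.sum_union hdisj1, hS 0 s0 hs0, hS 1728 s1 hs1,
    hS2, hc2] at hdeg
  have e0 : (3 : ℚ) * s0.card = dedekindPsi N + 2 * nuThree N := by exact_mod_cast hc0
  have e1 : (2 : ℚ) * s1.card = dedekindPsi N + nuTwo N := by exact_mod_cast hc1
  have e2 : (dedekindPsi N : ℚ) - s0.card + ((dedekindPsi N : ℚ) - s1.card)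
      + (-(dedekindPsi N : ℚ) - cuspCount N) = 2 * (genusFF Qbar (FN N) : ℚ) - 2 := by
    exact_mod_cast hdeg
  rw [genusFormula]
  linear_combination (-(1 : ℚ) / 2) * e2 - (1 : ℚ) / 6 * e0 - (1 : ℚ) / 4 * e1

end FLTAgent.Genus
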