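import Fermat.Prelude.Def_ModularCurve_GenusNumerics
import Mathlib.NumberTheory.ModularForms.CongruenceSubgroups
import Mathlib.NumberTheory.Modular
import Mathlib.NumberTheory.ArithmeticFunction.Moebius
import Mathlib.GroupTheory.GroupAction.Basic
import Mathlib.Data.ZMod.Units

/-!
Combinatorics of the coset space SL(2,ℤ) / Γ₀(N): index, fixed points of S and S*T,
orbits of T.
-/

set_option autoImplicit false

noncomputable section

open scoped MatrixGroups
open CongruenceSubgroup ModularGroup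

namespace FLTAgent.Genus

/-- The coset space SL(2,ℤ)/Γ₀(N), with its left action. -/
abbrev CosetSpace (N : ℕ) : Type := SL(2, ℤ) ⧸ Gamma0 N

/-- Unimodular pairs over a commutative ring. -/
def Unimod (R : Type*) [CommRing R] : Type _ :=
  {v : R × R // ∃ x y : R, x * v.1 + y * v.2 = 1}

namespace Unimod

variable {R : Type*} [CommRing R]

instance [Finite R] : Finite (Unimod R) := by unfold Unimod; infer_instance

theorem exists_unit_of_det {v w : Unimod R} (h : v.1.1 * w.1.2 - v.1.2 * w.1.1 = 0) :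
    ∃ u : Rˣ, (u : R) * v.1.1 = w.1.1 ∧ (u : R) * v.1.2 = w.1.2 := by
  obtain ⟨x, y, hxy⟩ := v.2
  obtain ⟨x', y', hxy'⟩ := w.2
  have h1 : (x * w.1.1 + y * w.1.2) * v.1.1 = w.1.1 := by linear_combination w.1.1 * hxy + y * h
  have h2 : (x * w.1.1 + y * w.1.2) * v.1.2 = w.1.2 := by linear_combination w.1.2 * hxy - x * h
  have h3 : (x * w.1.1 + y * w.1.2) * (x' * v.1.1 + y' * v.1.2) = 1 := by
    linear_combination x' * h1 + y' * h2 + hxy'
  exact ⟨Units.mkOfMulEqOne _ _ h3, h1, h2⟩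

theorem det_of_unit {v w : Unimod R} {u : Rˣ} (h1 : (u : R) * v.1.1 = w.1.1)
    (h2 : (u : R) * v.1.2 = w.1.2) : v.1.1 * w.1.2 - v.1.2 * w.1.1 = 0 := by
  rw [← h1, ← h2]; ring

/-- unimodular pairs of a product -/
def prodEquiv (R S : Type*) [CommRing R] [CommRing S] :
    Unimod (R × S) ≃ Unimod R × Unimod S where
  toFun v := (⟨(v.1.1.1, v.1.2.1), by
      obtain ⟨x, y, h⟩ := v.2
      exact ⟨x.1, y.1, congrArg Prod.fst h⟩⟩,
    ⟨(v.1.1.2, v.1.2.2), by
      obtain ⟨x, y, h⟩ := v.2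
      exact ⟨x.2, y.2, congrArg Prod.snd h⟩⟩)
  invFun p := ⟨((p.1.1.1, p.2.1.1), (p.1.1.2, p.2.1.2)), by
      obtain ⟨x, y, h⟩ := p.1.2
      obtain ⟨x', y', h'⟩ := p.2.2
      exact ⟨(x, x'), (y, y'), Prod.ext h h'⟩⟩
  left_inv v := rfl
  right_inv p := rfl

/-- functoriality -/
def congr {R S : Type*} [CommRing R] [CommRing S] (e : R ≃+* S) : Unimod R ≃ Unimod S :=
  (Equiv.prodCongr e.toEquiv e.toEquiv).subtypeEquiv fun v => by
    constructor
    · rintro ⟨x, y, h⟩
      exact ⟨e x, e y, by simpa using congrArg e h⟩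
    · rintro ⟨x, y, h⟩
      refine ⟨e.symm x, e.symm y, e.injective ?_⟩
      simpa using h

end Unimod

theorem card_unimod_mul {m n : ℕ} (h : m.Coprime n) :
    Nat.card (Unimod (ZMod (m * n))) = Nat.card (Unimod (ZMod m)) * Nat.card (Unimod (ZMod n)) := by
  rw [Nat.card_congr (Unimod.congr (ZMod.chineseRemainder h)),
    Nat.card_congr (Unimod.prodEquiv _ _), Nat.card_prod]

theorem zmod_prime_pow_isUnit_iff {p k : ℕ} (hp : p.Prime) (hk : 0 < k) (a : ℕ) :
    IsUnit (a : ZMod (p ^ k)) ↔ ¬ p ∣ a := by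
  rw [ZMod.isUnit_iff_coprime, Nat.coprime_pow_right_iff hk, Nat.coprime_comm,
    hp.coprime_iff_not_dvd]

theorem card_unimod_prime_pow {p k : ℕ} (hp : p.Prime) (hk : 0 < k) :
    Nat.card (Unimod (ZMod (p ^ k))) + (p ^ (k - 1)) ^ 2 = (p ^ k) ^ 2 := by
  classical
  haveI : NeZero (p ^ k) := ⟨pow_ne_zero _ hp.ne_zero⟩
  set R := ZMod (p ^ k)
  have hiff : ∀ v : R × R,
      (∃ x y : R, x * v.1 + y * v.2 = 1) ↔ ¬ (¬ IsUnit v.1 ∧ ¬ IsUnit v.2) := by
    rintro ⟨a, b⟩
    constructor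
    · rintro ⟨x, y, h⟩ ⟨ha, hb⟩
      obtain ⟨a, rfl⟩ := ZMod.natCast_zmod_surjective a
      obtain ⟨b, rfl⟩ := ZMod.natCast_zmod_surjective b
      obtain ⟨x, rfl⟩ := ZMod.natCast_zmod_surjective x
      obtain ⟨y, rfl⟩ := ZMod.natCast_zmod_surjective y
      rw [zmod_prime_pow_isUnit_iff hp hk, not_not] at ha hb
      have h1 : IsUnit ((x * a + y * b : ℕ) : R) := by
        have h2 : ((x * a + y * b : ℕ) : R) = 1 := by
          rw [Nat.cast_add, Nat.cast_mul, Nat.cast_mul]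
          exact h
        rw [h2]
        exact isUnit_one
      rw [zmod_prime_pow_isUnit_iff hp hk] at h1
      exact h1 (dvd_add (ha.mul_left x) (hb.mul_left y))
    · intro h
      rcases not_and_or.mp h with h | h <;> rw [not_not] at h
      · exact ⟨↑h.unit⁻¹, 0, by simp⟩
      · exact ⟨0, ↑h.unit⁻¹, by simp⟩
  have hnu : Nat.card {a : R // ¬ IsUnit a} = p ^ (k - 1) := by
    rw [Nat.card_eq_fintype_card, Fintype.card_subtype_compl, ZMod.card]
    have he : Fintype.card {a : R // IsUnit a} = Fintype.card Rˣ :=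
      Fintype.card_congr
        { toFun := fun a => a.2.unit
          invFun := fun u => ⟨u, u.isUnit⟩
          left_inv := fun a => rfl
          right_inv := fun u => Units.ext rfl }
    rw [he, ZMod.card_units_eq_totient, Nat.totient_prime_pow hp hk]
    obtain ⟨j, rfl⟩ : ∃ j, k = j + 1 := ⟨k - 1, by omega⟩
    have h2 : p ^ (j + 1) = p ^ j * (p - 1) + p ^ j := by
      rw [← Nat.mul_succ, pow_succ]
      congr 1
      have := hp.one_lt
      omega
    simp only [Nat.add_sub_cancel]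
    omega
  have hc : Nat.card {v : R × R // ¬ IsUnit v.1 ∧ ¬ IsUnit v.2} = (p ^ (k - 1)) ^ 2 := by
    rw [Nat.card_congr (Equiv.subtypeProdEquivProd (p := fun a : R => ¬ IsUnit a)
      (q := fun a : R => ¬ IsUnit a)), Nat.card_prod, hnu, sq]
  have htot : Nat.card (R × R) = (p ^ k) ^ 2 := by
    rw [Nat.card_prod, Nat.card_zmod, sq]
  rw [← htot, ← hc]
  rw [show Nat.card (Unimod R) = Nat.card {v : R × R // ¬ (¬ IsUnit v.1 ∧ ¬ IsUnit v.2)} from
    Nat.card_congr (Equiv.subtypeEquivRight hiff)]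
  rw [add_comm, ← Nat.card_sum]
  exact Nat.card_congr (Equiv.sumCompl _)

open ArithmeticFunction in
theorem dedekindPsi_mul {m n : ℕ} (h : m.Coprime n) :
    ModularCurve.dedekindPsi (m * n) = ModularCurve.dedekindPsi m * ModularCurve.dedekindPsi n := by
  let f : ArithmeticFunction ℤ :=
    (ArithmeticFunction.pmul ArithmeticFunction.moebius ArithmeticFunction.moebius)
      * (ArithmeticFunction.id : ArithmeticFunction ℕ)
  have hf : f.IsMultiplicative :=
    (isMultiplicative_moebius.pmul isMultiplicative_moebius).mul isMultiplicative_id.natCast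
  have hv : ∀ k : ℕ, f k = (ModularCurve.dedekindPsi k : ℤ) := by
    intro k
    simp only [f, ArithmeticFunction.mul_apply, ModularCurve.dedekindPsi]
    rw [Nat.sum_divisorsAntidiagonal
      (f := fun a b => (ArithmeticFunction.pmul moebius moebius) a *
        ((ArithmeticFunction.id : ArithmeticFunction ℕ) : ArithmeticFunction ℤ) b),
      Finset.sum_filter, Nat.cast_sum]
    refine Finset.sum_congr rfl fun d _ => ?_
    rw [ArithmeticFunction.pmul_apply, natCoe_apply, id_apply, ← sq]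
    split_ifs with hd
    · rw [moebius_sq_eq_one_of_squarefree hd, one_mul]
    · simp [moebius_eq_zero_of_not_squarefree hd]
  have := hf.map_mul_of_coprime h
  rw [hv, hv, hv] at this
  exact_mod_cast this

theorem dedekindPsi_prime_pow {p k : ℕ} (hp : p.Prime) (hk : 0 < k) :
    ModularCurve.dedekindPsi (p ^ k) = p ^ k + p ^ (k - 1) := by
  have hs : (p ^ k).divisors.filter Squarefree = {1, p} := by
    ext d
    simp only [Finset.mem_filter, Nat.mem_divisors_prime_pow hp, Finset.mem_insert,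
      Finset.mem_singleton]
    constructor
    · rintro ⟨⟨i, hi, rfl⟩, hd⟩
      rcases Nat.eq_zero_or_pos i with rfl | hi0
      · simp
      · right
        rw [((Nat.squarefree_pow_iff hp.ne_one hi0.ne').mp hd).2, pow_one]
    · rintro (rfl | rfl)
      · exact ⟨⟨0, Nat.zero_le _, by simp⟩, squarefree_one⟩
      · exact ⟨⟨1, hk, by simp⟩, hp.squarefree⟩
  rw [ModularCurve.dedekindPsi, hs, Finset.sum_pair hp.one_lt.ne, Nat.div_one]
  congr 1
  exact Nat.div_eq_of_eq_mul_left hp.pos (by rw [← pow_succ, Nat.sub_add_cancel hk])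

theorem card_unimod (N : ℕ) [NeZero N] :
    Nat.card (Unimod (ZMod N)) = ModularCurve.dedekindPsi N * N.totient := by
  suffices h : ∀ n : ℕ, 0 < n →
      Nat.card (Unimod (ZMod n)) = ModularCurve.dedekindPsi n * n.totient from
    h N (Nat.pos_of_ne_zero (NeZero.ne N))
  intro n
  induction n using Nat.recOnPosPrimePosCoprime with
  | prime_pow p k hp hk =>
    intro _
    have h := card_unimod_prime_pow hp hk
    rw [dedekindPsi_prime_pow hp hk, Nat.totient_prime_pow hp hk]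
    obtain ⟨j, rfl⟩ : ∃ j, k = j + 1 := ⟨k - 1, by omega⟩
    simp only [Nat.add_sub_cancel] at h ⊢
    have hp1 : p - 1 + 1 = p := Nat.succ_pred_eq_of_pos hp.pos
    have e : (p ^ (j + 1) + p ^ j) * (p ^ j * (p - 1)) + (p ^ j) ^ 2 = (p ^ (j + 1)) ^ 2 := by
      generalize p - 1 = q at hp1
      subst hp1
      ring
    omega
  | zero => intro h; omega
  | one =>
    intro _
    rw [ModularCurve.dedekindPsi_one, Nat.totient_one, Nat.card_eq_one_iff_unique]
    exact ⟨⟨fun a b => Subtype.ext (Subsingleton.elim _ _)⟩,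
      ⟨⟨(0, 0), 0, 0, Subsingleton.elim _ _⟩⟩⟩
  | coprime a b ha hb hab iha ihb =>
    intro _
    rw [card_unimod_mul hab, iha (by omega), ihb (by omega), dedekindPsi_mul hab,
      Nat.totient_mul hab]
    ring

section Cosets

variable {N : ℕ}

/-- first column modulo N -/
def col (g : SL(2, ℤ)) : Unimod (ZMod N) :=
  ⟨((g 0 0 : ℤ), (g 1 0 : ℤ)), ((g 1 1 : ℤ) : ZMod N), (-((g 0 1 : ℤ)) : ZMod N), by
    have h := Matrix.SpecialLinearGroup.det_coe g
    rw [Matrix.det_fin_two] at h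
    have h' := congrArg (Int.cast : ℤ → ZMod N) h
    push_cast at h'
    linear_combination h'⟩

theorem coset_eq_iff (g h : SL(2, ℤ)) :
    (QuotientGroup.mk g : CosetSpace N) = QuotientGroup.mk h ↔
      (col g : Unimod (ZMod N)).1.1 * (col h : Unimod (ZMod N)).1.2
        - (col g : Unimod (ZMod N)).1.2 * (col h : Unimod (ZMod N)).1.1 = 0 := by
  have h0 : (g⁻¹ * h : SL(2, ℤ)) 1 0 = g 0 0 * h 1 0 - g 1 0 * h 0 0 := by
    rw [Matrix.SpecialLinearGroup.coe_mul, Matrix.SpecialLinearGroup.coe_inv,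
      Matrix.adjugate_fin_two]
    simp [Matrix.mul_apply, Fin.sum_univ_two]
    ring
  rw [QuotientGroup.eq, Gamma0_mem, h0]
  simp [col]

variable [NeZero N]

theorem exists_coprime_lift (v : Unimod (ZMod N)) :
    ∃ a c : ℤ, IsCoprime a c ∧ (a : ZMod N) = v.1.1 ∧ (c : ZMod N) = v.1.2 := by
  classical
  obtain ⟨x, y, hxy⟩ := v.2
  set A := v.1.1.val
  set C := v.1.2.val + N
  have hC : C ≠ 0 := by have := NeZero.ne N; omega
  set t := ∏ p ∈ C.primeFactors.filter (fun p => ¬ p ∣ A), p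
  have hA : ((A : ℕ) : ZMod N) = v.1.1 := ZMod.natCast_zmod_val _
  have hC' : ((C : ℕ) : ZMod N) = v.1.2 := by simp [C]
  have hcop : Nat.Coprime (A + t * N) C := by
    refine Nat.coprime_of_dvd fun p hp hpA hpC => ?_
    by_cases hpa : p ∣ A
    · have hpt : ¬ p ∣ t := by
        intro hpt
        obtain ⟨q, hq, hpq⟩ := (hp.prime.dvd_finsetProd_iff _).mp hpt
        rw [Finset.mem_filter, Nat.mem_primeFactors] at hq
        rw [(Nat.prime_dvd_prime_iff_eq hp hq.1.1).mp hpq] at hpa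
        exact hq.2 hpa
      have hpN : p ∣ N :=
        ((hp.dvd_mul).mp ((Nat.dvd_add_right hpa).mp hpA)).resolve_left hpt
      haveI : Fact p.Prime := ⟨hp⟩
      have h1 := congrArg (ZMod.castHom hpN (ZMod p)) hxy
      rw [← hA, ← hC', map_add, map_mul, map_mul, map_natCast, map_natCast, map_one,
        (ZMod.natCast_eq_zero_iff _ _).mpr hpa, (ZMod.natCast_eq_zero_iff _ _).mpr hpC] at h1
      simp at h1
    · have hpt : p ∣ t := Finset.dvd_prod_of_mem _ (by simp [hp, hpC, hC, hpa])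
      exact hpa ((Nat.dvd_add_left (hpt.mul_right N)).mp hpA)
  exact ⟨((A + t * N : ℕ) : ℤ), (C : ℤ), Int.isCoprime_iff_gcd_eq_one.mpr ((Int.gcd_natCast_natCast _ _).trans hcop),
    by push_cast; simp [hA], by rw [Int.cast_natCast, hC']⟩

theorem col_surjective : Function.Surjective (col : SL(2, ℤ) → Unimod (ZMod N)) := by
  intro v
  obtain ⟨a, c, hac, ha, hc⟩ := exists_coprime_lift v
  obtain ⟨x, y, hxy⟩ := hac
  refine ⟨⟨!![a, -y; c, x], by rw [Matrix.det_fin_two_of]; linear_combination hxy⟩, ?_⟩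
  exact Subtype.ext (Prod.ext ha hc)

/-- the coset with given first column -/
def cosetOf (v : Unimod (ZMod N)) : CosetSpace N :=
  QuotientGroup.mk (col_surjective v).choose

theorem col_choose (v : Unimod (ZMod N)) : col (col_surjective v).choose = v :=
  (col_surjective v).choose_spec

theorem cosetOf_eq_iff (v w : Unimod (ZMod N)) :
    cosetOf v = cosetOf w ↔ v.1.1 * w.1.2 - v.1.2 * w.1.1 = 0 := by
  rw [cosetOf, cosetOf, coset_eq_iff, col_choose, col_choose]

theorem cosetOf_col (g : SL(2, ℤ)) : cosetOf (col g : Unimod (ZMod N)) = QuotientGroup.mk g := by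
  rw [cosetOf, coset_eq_iff, col_choose]
  ring

theorem cosetOf_surjective : Function.Surjective (cosetOf : Unimod (ZMod N) → CosetSpace N) := by
  intro i
  obtain ⟨g, rfl⟩ := QuotientGroup.mk_surjective i
  exact ⟨col g, cosetOf_col g⟩

/-- the linear action on unimodular pairs -/
def actU (g : SL(2, ℤ)) (v : Unimod (ZMod N)) : Unimod (ZMod N) :=
  col (g * (col_surjective v).choose)

theorem actU_fst (g : SL(2, ℤ)) (v : Unimod (ZMod N)) :
    (actU g v).1.1 = (g 0 0 : ℤ) * v.1.1 + (g 0 1 : ℤ) * v.1.2 := by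
  conv_rhs => rw [← col_choose v]
  simp [actU, col, Matrix.mul_apply, Fin.sum_univ_two]

theorem actU_snd (g : SL(2, ℤ)) (v : Unimod (ZMod N)) :
    (actU g v).1.2 = (g 1 0 : ℤ) * v.1.1 + (g 1 1 : ℤ) * v.1.2 := by
  conv_rhs => rw [← col_choose v]
  simp [actU, col, Matrix.mul_apply, Fin.sum_univ_two]

theorem smul_cosetOf (g : SL(2, ℤ)) (v : Unimod (ZMod N)) :
    g • cosetOf v = cosetOf (actU g v) := by
  rw [actU, cosetOf_col]
  rfl

theorem smul_cosetOf_eq_iff (g : SL(2, ℤ)) (v w : Unimod (ZMod N)) :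
    g • cosetOf v = cosetOf w ↔
      ((g 0 0 : ℤ) * v.1.1 + (g 0 1 : ℤ) * v.1.2) * w.1.2
        - ((g 1 0 : ℤ) * v.1.1 + (g 1 1 : ℤ) * v.1.2) * w.1.1 = 0 := by
  rw [smul_cosetOf, cosetOf_eq_iff, actU_fst, actU_snd]

variable (N)

theorem card_cosetSpace : Nat.card (CosetSpace N) = ModularCurve.dedekindPsi N := by
  let e : CosetSpace N × (ZMod N)ˣ → Unimod (ZMod N) := fun p =>
    ⟨((p.2 : ZMod N) * (col p.1.out : Unimod (ZMod N)).1.1,
      (p.2 : ZMod N) * (col p.1.out : Unimod (ZMod N)).1.2), by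
      obtain ⟨x, y, h⟩ := (col p.1.out : Unimod (ZMod N)).2
      refine ⟨x * ↑p.2⁻¹, y * ↑p.2⁻¹, ?_⟩
      linear_combination (x * (col p.1.out : Unimod (ZMod N)).1.1
        + y * (col p.1.out : Unimod (ZMod N)).1.2) * p.2.inv_mul + h⟩
  have he : Function.Bijective e := by
    constructor
    · rintro ⟨i, u⟩ ⟨i', u'⟩ h
      have h1 : (u : ZMod N) * _ = u' * _ := congrArg (fun v : Unimod (ZMod N) => v.1.1) h
      have h2 : (u : ZMod N) * _ = u' * _ := congrArg (fun v : Unimod (ZMod N) => v.1.2) h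
      have hi : i = i' := by
        rw [← QuotientGroup.out_eq' i, ← QuotientGroup.out_eq' i', coset_eq_iff]
        refine Unimod.det_of_unit (u := u'⁻¹ * u) ?_ ?_
        · rw [Units.val_mul, mul_assoc, h1, Units.inv_mul_cancel_left]
        · rw [Units.val_mul, mul_assoc, h2, Units.inv_mul_cancel_left]
      subst hi
      obtain ⟨x, y, hxy⟩ := (col i.out : Unimod (ZMod N)).2
      have hu : (u : ZMod N) = u' := by
        linear_combination x * h1 + y * h2 + ((u' : ZMod N) - u) * hxy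
      exact Prod.ext rfl (Units.ext hu)
    · intro v
      obtain ⟨g, hg⟩ := col_surjective v
      obtain ⟨u, hu1, hu2⟩ := Unimod.exists_unit_of_det
        ((coset_eq_iff _ g).mp (QuotientGroup.out_eq' (QuotientGroup.mk g : CosetSpace N)))
      refine ⟨(QuotientGroup.mk g, u), Subtype.ext (Prod.ext ?_ ?_)⟩
      · rw [← hg]; exact hu1
      · rw [← hg]; exact hu2
  have h := Nat.card_congr (Equiv.ofBijective e he)
  rw [Nat.card_prod, Nat.card_eq_fintype_card (α := (ZMod N)ˣ), ZMod.card_units_eq_totient,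
    card_unimod] at h
  exact Nat.eq_of_mul_eq_mul_right (Nat.totient_pos.mpr (Nat.pos_of_ne_zero (NeZero.ne N))) h

theorem neg_one_smul_coset (i : CosetSpace N) : (-1 : SL(2, ℤ)) • i = i := by
  obtain ⟨v, rfl⟩ := cosetOf_surjective i
  rw [smul_cosetOf_eq_iff]
  simp
  ring

theorem card_fixed_aux (g : SL(2, ℤ)) (q : ZMod N → ZMod N)
    (hg : ∀ v : Unimod (ZMod N), g • cosetOf v = cosetOf v ↔
      ∃ x, q x = 0 ∧ v.1.1 = x * v.1.2 ∧ IsUnit v.1.2) :
    Nat.card (MulAction.fixedBy (CosetSpace N) g) = Nat.card {x : ZMod N // q x = 0} := by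
  let f : {x : ZMod N // q x = 0} → MulAction.fixedBy (CosetSpace N) g := fun x =>
    ⟨cosetOf ⟨(x.1, 1), 0, 1, by simp⟩, (hg _).mpr ⟨x.1, x.2, by simp, isUnit_one⟩⟩
  refine (Nat.card_congr (Equiv.ofBijective f ⟨?_, ?_⟩)).symm
  · intro x y h
    have h' := (cosetOf_eq_iff _ _).mp (congrArg Subtype.val h)
    exact Subtype.ext (by linear_combination h')
  · rintro ⟨i, hi⟩
    obtain ⟨v, rfl⟩ := cosetOf_surjective i
    obtain ⟨x, hx, h1, -⟩ := (hg v).mp hi
    exact ⟨⟨x, hx⟩, Subtype.ext ((cosetOf_eq_iff _ _).mpr (by simp [h1]))⟩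

theorem card_fixedBy_S :
    Nat.card (MulAction.fixedBy (CosetSpace N) S) = ModularCurve.nuTwo N := by
  refine card_fixed_aux N S (fun x => x ^ 2 + 1) fun v => ?_
  rw [smul_cosetOf_eq_iff]
  simp [S]
  constructor
  · intro h
    obtain ⟨x, y, hxy⟩ := v.2
    have hu : IsUnit v.1.2 := isUnit_of_dvd_one
      ⟨(2 - y * v.1.2) * y - x ^ 2 * v.1.2,
        by linear_combination (-x ^ 2) * h - (x * v.1.1 - y * v.1.2 + 1) * hxy⟩
    refine ⟨v.1.1 * ↑hu.unit⁻¹, ?_, ?_, hu⟩
    · have e : v.1.2 * (↑hu.unit⁻¹ : ZMod N) = 1 := hu.mul_val_inv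
      linear_combination (-(↑hu.unit⁻¹ : ZMod N) ^ 2) * h
        - (v.1.2 * (↑hu.unit⁻¹ : ZMod N) + 1) * e
    · rw [mul_assoc, hu.val_inv_mul, mul_one]
  · rintro ⟨x, hx, h1, -⟩
    rw [h1]
    linear_combination -v.1.2 ^ 2 * hx

theorem card_fixedBy_U :
    Nat.card (MulAction.fixedBy (CosetSpace N) (S * T)) = ModularCurve.nuThree N := by
  refine card_fixed_aux N (S * T) (fun x => x ^ 2 + x + 1) fun v => ?_
  rw [smul_cosetOf_eq_iff]
  simp [S, T, Matrix.mul_apply, Fin.sum_univ_two]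
  constructor
  · intro h
    obtain ⟨x, y, hxy⟩ := v.2
    have hu : IsUnit v.1.2 := isUnit_of_dvd_one
      ⟨(2 - y * v.1.2) * y - x ^ 2 * (v.1.1 + v.1.2),
        by linear_combination (-x ^ 2) * h - (x * v.1.1 - y * v.1.2 + 1) * hxy⟩
    refine ⟨v.1.1 * ↑hu.unit⁻¹, ?_, ?_, hu⟩
    · have e : v.1.2 * (↑hu.unit⁻¹ : ZMod N) = 1 := hu.mul_val_inv
      linear_combination (-(↑hu.unit⁻¹ : ZMod N) ^ 2) * h
        - (v.1.1 * (↑hu.unit⁻¹ : ZMod N) + v.1.2 * (↑hu.unit⁻¹ : ZMod N) + 1) * e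
    · rw [mul_assoc, hu.val_inv_mul, mul_one]
  · rintro ⟨x, hx, h1, -⟩
    rw [h1]
    linear_combination -v.1.2 ^ 2 * hx

theorem card_fixedBy_TS :
    Nat.card (MulAction.fixedBy (CosetSpace N) (T * S)) = ModularCurve.nuThree N := by
  rw [← card_fixedBy_U N]
  refine Nat.card_congr ((MulAction.toPerm S).subtypeEquiv fun i => ?_)
  simp only [MulAction.mem_fixedBy, MulAction.toPerm_apply, mul_smul]
  exact ⟨fun h => by rw [h], fun h => smul_left_cancel S h⟩

theorem T_pow_smul_cosetOf_eq_iff (b : ℤ) (v w : Unimod (ZMod N)) :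
    (T ^ b) • cosetOf v = cosetOf w ↔
      (v.1.1 + (b : ZMod N) * v.1.2) * w.1.2 - v.1.2 * w.1.1 = 0 := by
  rw [smul_cosetOf_eq_iff]
  simp [coe_T_zpow]

theorem T_pow_level_smul (i : CosetSpace N) : (T ^ (N : ℤ)) • i = i := by
  obtain ⟨v, rfl⟩ := cosetOf_surjective i
  rw [T_pow_smul_cosetOf_eq_iff]
  simp
  ring

theorem card_orbits_T :
    Nat.card (MulAction.orbitRel.Quotient (Subgroup.zpowers T) (CosetSpace N))
      = ModularCurve.cuspCount N := by
  classical
  have hlift : ∀ (g : ℕ) (x : (ZMod (Nat.gcd g (N / g)))ˣ), g ≠ 0 →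
      ∃ A : ℕ, Nat.Coprime A g ∧ (A : ZMod (Nat.gcd g (N / g))) = x := by
    intro g x hg
    haveI : NeZero g := ⟨hg⟩
    obtain ⟨u, hu⟩ := ZMod.unitsMap_surjective (Nat.gcd_dvd_left g (N / g)) x
    refine ⟨(u : ZMod g).val, ZMod.val_coe_unit_coprime u, ?_⟩
    rw [← hu, ZMod.unitsMap_val, ← ZMod.natCast_val]
  choose A hA1 hA2 using hlift
  let g0 : ∀ g : N.divisors, (g : ℕ) ≠ 0 := fun g => (Nat.pos_of_mem_divisors g.2).ne'
  let pt : ∀ g : N.divisors, (ZMod (Nat.gcd (g : ℕ) (N / g)))ˣ → Unimod (ZMod N) := fun g x =>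
    ⟨(((A g x (g0 g) : ℕ) : ZMod N), ((g : ℕ) : ZMod N)), by
      obtain ⟨a, b, h⟩ := Int.isCoprime_iff_gcd_eq_one.mpr
        (show Int.gcd (A g x (g0 g) : ℤ) ((g : ℕ) : ℤ) = 1 by simpa using hA1 g x (g0 g))
      refine ⟨(a : ZMod N), (b : ZMod N), ?_⟩
      have h' := congrArg (Int.cast : ℤ → ZMod N) h
      push_cast at h'
      exact h'⟩
  let F : (Σ g : N.divisors, (ZMod (Nat.gcd (g : ℕ) (N / g)))ˣ) →
      MulAction.orbitRel.Quotient (Subgroup.zpowers T) (CosetSpace N) :=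
    fun p => Quotient.mk _ (cosetOf (pt p.1 p.2))
  have hF : Function.Bijective F := by
    constructor
    · rintro ⟨⟨g, hg⟩, x⟩ ⟨⟨g', hg'⟩, x'⟩ h
      obtain ⟨⟨_, b, rfl⟩, hb⟩ := Quotient.exact h
      have hb' := (T_pow_smul_cosetOf_eq_iff N b _ _).mp hb
      simp only [pt] at hb'
      set a := A g x (g0 ⟨g, hg⟩) with ha
      set a' := A g' x' (g0 ⟨g', hg'⟩) with ha'
      have hdiv : (N : ℤ) ∣ ((a' : ℤ) + b * g') * g - g' * a := by
        rw [← ZMod.intCast_zmod_eq_zero_iff_dvd]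
        push_cast
        linear_combination hb'
      have hgN : g ∣ N := Nat.dvd_of_mem_divisors hg
      have hg'N : g' ∣ N := Nat.dvd_of_mem_divisors hg'
      have h1 : (g : ℤ) ∣ g' := by
        have := (Int.natCast_dvd_natCast.mpr hgN).trans hdiv
        rw [dvd_sub_right (dvd_mul_left _ _)] at this
        exact (Int.isCoprime_iff_gcd_eq_one.mpr (show Int.gcd (g : ℤ) (a : ℤ) = 1 by
          simpa using Nat.Coprime.symm (hA1 g x _))).dvd_of_dvd_mul_right this
      have h2 : (g' : ℤ) ∣ g := by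
        have := (Int.natCast_dvd_natCast.mpr hg'N).trans hdiv
        rw [dvd_sub_left (dvd_mul_right _ _)] at this
        have h3 : (g' : ℤ) ∣ (a' : ℤ) * g := by
          have h4 : (g' : ℤ) ∣ b * g' * g := (dvd_mul_left _ _).mul_right _
          rw [add_mul] at this
          exact (dvd_add_left h4).mp this
        exact (Int.isCoprime_iff_gcd_eq_one.mpr (show Int.gcd (g' : ℤ) (a' : ℤ) = 1 by
          simpa using Nat.Coprime.symm (hA1 g' x' _))).dvd_of_dvd_mul_left h3
      obtain rfl : g = g' := by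
        exact_mod_cast Int.dvd_antisymm (by positivity) (by positivity) h1 h2
      have h5 : ((N / g : ℕ) : ℤ) ∣ (a' : ℤ) + b * g - a := by
        have h6 : ((g : ℕ) : ℤ) * ((N / g : ℕ) : ℤ) ∣ (g : ℤ) * ((a' : ℤ) + b * g - a) := by
          rw [← Nat.cast_mul, Nat.mul_div_cancel' hgN]
          convert hdiv using 1
          ring
        exact (mul_dvd_mul_iff_left (by exact_mod_cast g0 ⟨g, hg⟩)).mp h6
      have h7 : (x' : ZMod (Nat.gcd g (N / g))) = x := by
        rw [← hA2 g x (g0 ⟨g, hg⟩), ← hA2 g x' (g0 ⟨g, hg'⟩), ← ha, ← ha']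
        have h8 := (Int.natCast_dvd_natCast.mpr (Nat.gcd_dvd_right g (N / g))).trans h5
        rw [← ZMod.intCast_zmod_eq_zero_iff_dvd] at h8
        push_cast at h8
        rw [(ZMod.natCast_eq_zero_iff _ _).mpr (Nat.gcd_dvd_left g (N / g)), mul_zero,
          add_zero] at h8
        exact sub_eq_zero.mp h8
      rw [Units.ext h7]
    · intro o
      induction o using Quotient.inductionOn with
      | h i =>
      obtain ⟨v, rfl⟩ := cosetOf_surjective i
      obtain ⟨g, hg⟩ : ∃ g, g = Nat.gcd v.1.2.val N := ⟨_, rfl⟩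
      have hgN : g ∣ N := hg ▸ Nat.gcd_dvd_right _ _
      have hg0 : g ≠ 0 := fun h => NeZero.ne N (Nat.eq_zero_of_zero_dvd (h ▸ hgN))
      haveI : NeZero (N / g) := ⟨(Nat.div_pos (Nat.le_of_dvd
        (Nat.pos_of_ne_zero (NeZero.ne N)) hgN) (Nat.pos_of_ne_zero hg0)).ne'⟩
      have hc' : Nat.Coprime (v.1.2.val / g) (N / g) :=
        hg ▸ Nat.coprime_div_gcd_div_gcd (by rw [← hg]; exact Nat.pos_of_ne_zero hg0)
      obtain ⟨w, hw⟩ := ZMod.unitsMap_surjective (Nat.div_dvd_of_dvd hgN)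
        (ZMod.unitOfCoprime _ hc')
      have hw' : ((g : ℕ) : ZMod N) * (w : ZMod N) = v.1.2 := by
        have h1 : ((w : ZMod N).val : ZMod (N / g)) = ((v.1.2.val / g : ℕ) : ZMod (N / g)) := by
          have h1 := congrArg (fun u : (ZMod (N / g))ˣ => (u : ZMod (N / g))) hw
          simpa [ZMod.unitsMap_val, ZMod.natCast_val] using h1
        rw [ZMod.natCast_eq_natCast_iff'] at h1
        have h2 := Nat.ModEq.mul_left' g h1
        rw [Nat.mul_div_cancel' hgN,
          Nat.mul_div_cancel' (hg ▸ Nat.gcd_dvd_left _ _), ← ZMod.natCast_eq_natCast_iff] at h2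
        simpa using h2
      set a0 := v.1.1 * ↑w⁻¹ with ha0
      have hcop : Nat.Coprime a0.val g := by
        refine Nat.coprime_of_dvd fun p hp hpa hpg => ?_
        haveI : Fact p.Prime := ⟨hp⟩
        obtain ⟨x, y, hxy⟩ := v.2
        have hpN : p ∣ N := hpg.trans hgN
        have h1 := congrArg (ZMod.castHom hpN (ZMod p)) hxy
        rw [← hw', show v.1.1 = a0 * w by rw [ha0, Units.inv_mul_cancel_right],
          ← ZMod.natCast_zmod_val a0] at h1
        simp only [map_add, map_mul, map_natCast, map_one,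
          (ZMod.natCast_eq_zero_iff _ _).mpr hpa, (ZMod.natCast_eq_zero_iff _ _).mpr hpg] at h1
        simp at h1
      have hgmem : g ∈ N.divisors := Nat.mem_divisors.mpr ⟨hgN, NeZero.ne N⟩
      set t := Nat.gcd g (N / g) with ht
      let x : (ZMod t)ˣ := ZMod.unitOfCoprime a0.val
        (hcop.coprime_dvd_right (Nat.gcd_dvd_left _ _))
      refine ⟨⟨⟨g, hgmem⟩, x⟩, Quotient.sound ?_⟩
      set a := A g x (g0 ⟨g, hgmem⟩) with ha
      have hax : (a : ZMod t) = a0.val := hA2 g x (g0 ⟨g, hgmem⟩)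
      rw [ZMod.natCast_eq_natCast_iff] at hax
      have hd : (t : ℤ) ∣ (a : ℤ) - a0.val := (Nat.modEq_iff_dvd.mp hax.symm)
      obtain ⟨k, hk⟩ := hd
      set b : ℤ := k * Nat.gcdA g (N / g) with hbdef
      refine ⟨⟨T ^ b, b, rfl⟩, ?_⟩
      show (T ^ b) • cosetOf v = cosetOf (pt ⟨g, hgmem⟩ x)
      rw [T_pow_smul_cosetOf_eq_iff]
      simp only [pt, ← ha]
      rw [← hw', show v.1.1 = a0 * w by rw [ha0, Units.inv_mul_cancel_right]]
      have hbez : (t : ℤ) = g * Nat.gcdA g (N / g) + (N / g : ℕ) * Nat.gcdB g (N / g) :=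
        Nat.gcd_eq_gcd_ab g (N / g)
      have hN : ((g : ℕ) : ℤ) * ((N / g : ℕ) : ℤ) = N := by
        rw [← Nat.cast_mul, Nat.mul_div_cancel' hgN]
      have e : (g : ℤ) * ((a0.val : ℤ) + b * g) - g * a =
          (N : ℤ) * (-(k * Nat.gcdB g (N / g))) := by
        rw [hbdef]
        linear_combination (-(g : ℤ)) * hk - (g : ℤ) * k * hbez
          - k * Nat.gcdB g (N / g) * hN
      have e' := congrArg (Int.cast : ℤ → ZMod N) e
      push_cast at e'
      simp only [ZMod.natCast_self, zero_mul, ZMod.natCast_zmod_val] at e'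
      linear_combination (w : ZMod N) * e'
  haveI hne : ∀ g : N.divisors, NeZero (Nat.gcd (g : ℕ) (N / g)) := fun g =>
    ⟨Nat.gcd_ne_zero_left (g0 g)⟩
  rw [← Nat.card_congr (Equiv.ofBijective F hF), Nat.card_sigma]
  rw [ModularCurve.cuspCount, ← Finset.sum_coe_sort N.divisors]
  refine Finset.sum_congr rfl fun g _ => ?_
  rw [Nat.card_eq_fintype_card, ZMod.card_units_eq_totient]

end Cosets

end FLTAgent.Genus
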