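import Fermat.Agent.Genus.Places

/-!
Exports for the cusp-form application: orders of the conjugates of a function in terms of its
orders at places.
-/

set_option autoImplicit false

noncomputable section

open ModularCurve Filter Topology UpperHalfPlane AlgebraicCurve
open scoped MatrixGroups

namespace FLTAgent.Genus

open FLTAgent.ModFun

variable (N : ℕ) [NeZero N]

/-- vanishing order of `j - j(τ₀)` at `τ₀` is positive and finite -/
theorem exists_jOrder (τ₀ : ℍ) : ∃ k : ℕ, 0 < k ∧
    analyticOrderAt (fun z => jFun (ofComplex z) - jFun τ₀) τ₀ = k := by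
  by_cases h0 : jFun τ₀ = 0
  · obtain ⟨γ, hγ⟩ := jFun_eq_iff.mp (jFun_rho.trans h0.symm)
    refine ⟨3, by norm_num, ?_⟩
    subst hγ
    have h := analyticOrderAt_jFun_sub_rho γ
    simp only [h0, sub_zero]
    exact h
  by_cases h1 : jFun τ₀ = 1728
  · obtain ⟨γ, hγ⟩ := jFun_eq_iff.mp (jFun_I.trans h1.symm)
    refine ⟨2, by norm_num, ?_⟩
    subst hγ
    have h := analyticOrderAt_jFun_sub_I γ
    simp only [h1]
    exact h
  exact ⟨1, one_pos, analyticOrderAt_jFun_sub_generic h0 h1⟩

theorem exists_place_interior (τ₀ : ℍ) (c : Qbar) (hc : embC c = jFun τ₀) (i : CosetSpace N) :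
    ∃ (w : Place Qbar (FN N)) (k : ℕ), 0 < k ∧
      analyticOrderAt (fun z => jFun (ofComplex z) - jFun τ₀) τ₀ = k ∧
      0 < w.ord (jBar N - algebraMap Qbar (FN N) c) ∧
      ∀ h : FN N, h ≠ 0 → w.ord (jBar N - algebraMap Qbar (FN N) c) *
        vlog (ordVal (τ₀ : ℂ)) ((interiorChart N τ₀).sigma i h) = k * w.ord h := by
  obtain ⟨k, hk0, hk⟩ := exists_jOrder τ₀
  have hU : ∀ i, (interiorChart N τ₀).sigma i (jBar N - algebraMap Qbar (FN N) c) =
      germOf (fun z => jFun (ofComplex z) - jFun τ₀)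
        (((analyticOnNhd_ofComplex mdiff_jFun) _ τ₀.im_pos).sub analyticAt_const).meromorphicAt := by
    intro i
    rw [map_sub, AlgHom.commutes]
    show @id (MeroGerm (τ₀ : ℂ)) ((interiorChart N τ₀).sigma i (jBar N))
      - algebraMap ℂ (MeroGerm (τ₀ : ℂ)) (embC c) = _
    rw [sigma_jBar_interior, hc, algebraMap_eq_germOf, sub_eq_add_neg]
    simp only [id_eq]
    rfl
  set u := jBar N - algebraMap Qbar (FN N) c
  set C := interiorChart N τ₀
  have hv : vlog (ordVal C.pt) (C.sigma i u) = k := by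
    rw [hU, vlog]
    refine (log_ordVal_germOf (z₀ := (τ₀ : ℂ)) _).trans ?_
    have han : AnalyticAt ℂ (fun z => jFun (ofComplex z) - jFun τ₀) τ₀ :=
      ((analyticOnNhd_ofComplex mdiff_jFun) _ τ₀.im_pos).sub analyticAt_const
    rw [AnalyticAt.meromorphicOrderAt_eq han]
    show (WithTop.map _ (analyticOrderAt _ (τ₀ : ℂ))).untop₀ = _
    rw [hk]
    rfl
  have hu0 : u ≠ 0 := fun h => (transcendental_sub_const N c) (by
    show IsAlgebraic Qbar u
    rw [h]; exact isAlgebraic_zero)
  obtain ⟨w, g, hg, hw⟩ := exists_place_of_valuation (K := Qbar)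
    ((ordVal C.pt).comap (C.sigma i).toRingHom) (fun d => by
      rcases eq_or_ne d 0 with rfl | hd
      · simp
      · show ordVal C.pt (C.sigma i (algebraMap Qbar (FN N) d)) ≤ 1
        rw [AlgHom.commutes, ordVal_algebraMap_qbar hd])
    (x := u⁻¹) (by
      show 1 < ordVal C.pt (C.sigma i u⁻¹)
      rw [map_inv₀, map_inv₀, one_lt_inv₀
        (zero_lt_iff.mpr ((Valuation.ne_zero_iff _).mpr ((map_ne_zero _).mpr hu0))),
        val_lt_one_iff _ ((map_ne_zero _).mpr hu0)]
      omega)
  have hwu : vlog (ordVal C.pt) (C.sigma i u) = g * w.ord u := hw u hu0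
  refine ⟨w, k, hk0, hk, ?_, fun h hh => ?_⟩
  · rw [hv] at hwu
    have : (0 : ℤ) < g := by exact_mod_cast hg
    nlinarith
  · have h1 : vlog (ordVal C.pt) (C.sigma i h) = g * w.ord h := hw h hh
    rw [hv] at hwu
    show w.ord u * vlog (ordVal C.pt) (C.sigma i h) = _
    rw [h1, hwu]
    ring

theorem exists_place_cusp (i : CosetSpace N) :
    ∃ w : Place Qbar (FN N), w.ord (jBar N) < 0 ∧ ∀ h : FN N, h ≠ 0 →
      -w.ord (jBar N) * vlog (ordVal (0 : ℂ)) ((cuspChart N).sigma i h) = N * w.ord h := by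
  obtain ⟨s, hs, -, hpl⟩ := fibre_infty N
  obtain ⟨w, hw, hwh⟩ := hpl i
  exact ⟨w, (hs w).mp hw, hwh⟩

/-- A function with poles only over `j = ∞` has regular conjugates at every point of ℍ. -/
theorem regular_interior {h : FN N}
    (hh : ∀ w : Place Qbar (FN N), 0 ≤ w.ord (jBar N) → h = 0 ∨ 0 ≤ w.ord h)
    (τ₀ : ℍ) (i : CosetSpace N) : ordVal (τ₀ : ℂ) ((interiorChart N τ₀).sigma i h) ≤ 1 := by
  have hj := transcendental_jBar N
  haveI := RR.finiteDimensional_adjoin (K := Qbar) hj
  have hint : ∃ p : Polynomial (Polynomial Qbar), p.Monic ∧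
      p.eval₂ (Polynomial.aeval (R := Qbar) (jBar N)).toRingHom h = 0 := by
    refine RR.with_chart hj ?_
    intro _ _ _ _ _ heq _ _
    have hint : IsIntegral (Polynomial Qbar) h := RR.Chart.mem_A_of_bd fun v hv => by
      rw [RR.bd_iff]
      rcases RR.bd_iff.mp (show RR.Bd v (jBar N) 0 by
        have := heq Polynomial.X
        rw [Polynomial.aeval_X] at this
        rw [← this]; exact hv) with h0 | h0
      · exact absurd (h0 ▸ isAlgebraic_zero) hj
      · simpa using hh v (by simpa using h0)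
    obtain ⟨p, hp, hev⟩ := hint
    refine ⟨p, hp, ?_⟩
    rw [show (Polynomial.aeval (R := Qbar) (jBar N)).toRingHom =
      algebraMap (Polynomial Qbar) (FN N) from RingHom.ext fun q => (heq q).symm]
    exact hev
  obtain ⟨p, hp, hev⟩ := hint
  set C := interiorChart N τ₀
  have hjreg : ordVal C.pt (C.sigma i (jBar N)) ≤ 1 := by
    rw [val_le_one_iff]
    rcases eq_or_ne (C.sigma i (jBar N)) 0 with h0 | h0
    · exact Or.inl h0
    right
    show 0 ≤ vlog (ordVal (τ₀ : ℂ)) ((interiorChart N τ₀).sigma i (jBar N))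
    rw [sigma_jBar_interior, vlog, log_ordVal_germOf]
    have han := (analyticOnNhd_ofComplex mdiff_jFun) _ τ₀.im_pos
    rw [AnalyticAt.meromorphicOrderAt_eq han]
    cases analyticOrderAt (fun z => jFun (ofComplex z)) (τ₀ : ℂ) with
    | top => exact le_refl _
    | coe m => exact Int.natCast_nonneg m
  have hcoef : ∀ n, ordVal C.pt (C.sigma i (Polynomial.aeval (jBar N) (p.coeff n))) ≤ 1 := by
    intro n
    rw [← Polynomial.aeval_algHom_apply]
    exact val_aeval_le_one (ordVal C.pt) (fun c hc => ordVal_algebraMap_qbar hc) hjreg _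
  have hroot : Polynomial.eval₂ ((C.sigma i).toRingHom.comp
      (Polynomial.aeval (R := Qbar) (jBar N)).toRingHom) (C.sigma i h) p = 0 := by
    refine (Polynomial.hom_eval₂ _ _ _ _).symm.trans ?_
    have : (C.sigma i).toRingHom (Polynomial.eval₂
      (Polynomial.aeval (R := Qbar) (jBar N)).toRingHom h p) = 0 := by rw [hev, map_zero]
    exact this
  set q := p.map ((C.sigma i).toRingHom.comp (Polynomial.aeval (R := Qbar) (jBar N)).toRingHom)
    with hq
  have hlift : q ∈ Polynomial.lifts (ordVal C.pt).valuationSubring.subtype := by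
    refine (Polynomial.lifts_iff_coeff_lifts _).mpr fun n => ?_
    rw [hq, Polynomial.coeff_map]
    exact ⟨⟨_, (Valuation.mem_valuationSubring_iff _ _).mpr (hcoef n)⟩, rfl⟩
  obtain ⟨q', hq', -, hqm⟩ := Polynomial.lifts_and_natDegree_eq_and_monic hlift (hp.map _)
  have hintg : IsIntegral (ordVal C.pt).valuationSubring (C.sigma i h) := by
    refine ⟨q', hqm, ?_⟩
    rw [Polynomial.eval₂_eq_eval_map]
    show Polynomial.eval _ (q'.map (ordVal C.pt).valuationSubring.subtype) = 0
    rw [hq', hq, ← Polynomial.eval₂_eq_eval_map]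
    exact hroot
  obtain ⟨y, hy⟩ := IsIntegrallyClosed.isIntegral_iff.mp hintg
  show ordVal C.pt (C.sigma i h) ≤ 1
  rw [← hy]
  exact (Valuation.mem_valuationSubring_iff _ _).mp y.2

end FLTAgent.Genus
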