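import Fermat.Prelude.Def_ModularCurve_ArithmeticGalois
import Fermat.Agent.Genus.Germ
import Mathlib.RingTheory.Localization.FractionRing
import Mathlib.Analysis.Complex.Polynomial.Basic

/-!
`modularFunctionFieldBar N` as generated by the finitely many expansions of `j(dτ)`, and
homomorphisms out of it.
-/

set_option autoImplicit false

noncomputable section

open ModularCurve IntermediateField
open scoped IntermediateField.algebraAdjoinAdjoin

namespace FLTAgent.Genus

/-- base field -/
abbrev Qbar : Type := AlgebraicClosure ℚ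

/-- a fixed embedding of `Qbar` in `ℂ` -/
def embC : Qbar →+* ℂ :=
  haveI : Algebra.IsAlgebraic ℚ Qbar := AlgebraicClosure.isAlgebraic ℚ
  (IsAlgClosed.lift (R := ℚ) (S := Qbar) (M := ℂ)).toRingHom

scoped instance algQbarC : Algebra Qbar ℂ := embC.toAlgebra

scoped instance algQbarGerm (z₀ : ℂ) : Algebra Qbar (MeroGerm z₀) :=
  ((algebraMap ℂ (MeroGerm z₀)).comp embC).toAlgebra

scoped instance towerQbarGerm (z₀ : ℂ) : IsScalarTower Qbar ℂ (MeroGerm z₀) :=
  IsScalarTower.of_algebraMap_eq' rfl

theorem ordVal_algebraMap_qbar {z₀ : ℂ} {c : Qbar} (hc : c ≠ 0) :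
    ordVal z₀ (algebraMap Qbar (MeroGerm z₀) c) = 1 := by
  rw [IsScalarTower.algebraMap_apply Qbar ℂ (MeroGerm z₀)]
  exact ordVal_algebraMap ((map_ne_zero _).mpr hc)

variable (N : ℕ)

instance neZero_divisor (d : N.divisors) : NeZero (d : ℕ) :=
  ⟨(Nat.pos_of_mem_divisors d.2).ne'⟩

/-- expansion of `j(dτ)` -/
def jgen (d : N.divisors) : LaurentSeries Qbar := coeffEmb Qbar (qExpand ℚ (d : ℕ) jq)

theorem field_eq_adjoin [NeZero N] :
    modularFunctionFieldBar N = adjoin Qbar (Set.range (jgen N)) := by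
  refine le_antisymm ?_ ?_
  · rw [modularFunctionFieldBar, laurentBaseChange, adjoin_le_iff]
    rintro _ ⟨x, hx, rfl⟩
    let S : IntermediateField ℚ (LaurentSeries ℚ) :=
      ((adjoin Qbar (Set.range (jgen N))).toSubfield.comap (coeffEmb Qbar)).toIntermediateField
        (fun r => by
          show coeffEmb Qbar (algebraMap ℚ (LaurentSeries ℚ) r) ∈
            (adjoin Qbar (Set.range (jgen N))).toSubfield
          rw [eq_ratCast (algebraMap ℚ (LaurentSeries ℚ)) r, map_ratCast]
          exact SubfieldClass.ratCast_mem _ r)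
    have h : modularFunctionFieldFull N ≤ S := by
      rw [modularFunctionFieldFull, adjoin_le_iff]
      rintro y ⟨d, hd, hdN, rfl⟩
      show coeffEmb Qbar (qExpand ℚ d jq) ∈ adjoin Qbar (Set.range (jgen N))
      exact subset_adjoin Qbar _
        ⟨⟨d, Nat.mem_divisors.mpr ⟨hdN, NeZero.ne N⟩⟩, rfl⟩
    exact h hx
  · rw [adjoin_le_iff]
    rintro _ ⟨d, rfl⟩
    exact coeffEmb_mem_laurentBaseChange Qbar (jqd_mem_full N (Nat.dvd_of_mem_divisors d.2))

/-- generators inside the field -/
def gen (d : N.divisors) : modularFunctionFieldBar N :=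
  ⟨jgen N d, coeffEmb_mem_laurentBaseChange Qbar (jqd_mem_full N (Nat.dvd_of_mem_divisors d.2))⟩

theorem coe_aeval_gen (P : MvPolynomial N.divisors Qbar) :
    ((MvPolynomial.aeval (gen N) P : modularFunctionFieldBar N) : LaurentSeries Qbar) =
      MvPolynomial.aeval (jgen N) P := by
  rw [← IntermediateField.coe_val, MvPolynomial.comp_aeval_apply]
  rfl

theorem exists_repr [NeZero N] (x : modularFunctionFieldBar N) :
    ∃ P Q : MvPolynomial N.divisors Qbar, MvPolynomial.aeval (gen N) Q ≠ 0 ∧
      x = MvPolynomial.aeval (gen N) P / MvPolynomial.aeval (gen N) Q := by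
  obtain ⟨P, Q, h⟩ := (mem_adjoin_range_iff Qbar (jgen N) _).mp ((field_eq_adjoin N).le x.2)
  rcases eq_or_ne (MvPolynomial.aeval (gen N) Q) 0 with h0 | h0
  · refine ⟨0, 1, by simp, Subtype.ext ?_⟩
    have hQ : MvPolynomial.aeval (jgen N) Q = 0 := by
      rw [← coe_aeval_gen, h0, ZeroMemClass.coe_zero]
    rw [h, hQ, div_zero]
    simp
  · refine ⟨P, Q, h0, Subtype.ext ?_⟩
    rw [h, ← coe_aeval_gen, ← coe_aeval_gen]
    simp

variable {N}

theorem exists_algHom [NeZero N] {M : Type*} [Field M] [Algebra Qbar M] (m : N.divisors → M)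
    (h : ∀ P : MvPolynomial N.divisors Qbar,
      MvPolynomial.aeval (jgen N) P = 0 ↔ MvPolynomial.aeval m P = 0) :
    ∃ σ : modularFunctionFieldBar N →ₐ[Qbar] M, ∀ d, σ (gen N d) = m d := by
  have hker : RingHom.ker (MvPolynomial.aeval (R := Qbar) (jgen N)) ≤
      RingHom.ker (MvPolynomial.aeval (R := Qbar) m) := fun P hP => (h P).mp hP
  let A := Algebra.adjoin Qbar (Set.range (jgen N))
  let π : MvPolynomial N.divisors Qbar →ₐ[Qbar] A :=
    (MvPolynomial.aeval (jgen N)).codRestrict A (fun P => by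
      show _ ∈ Algebra.adjoin Qbar (Set.range (jgen N))
      rw [Algebra.adjoin_range_eq_range_aeval]
      exact AlgHom.mem_range_self _ P)
  have hπ : Function.Surjective π := by
    rintro ⟨x, hx⟩
    obtain ⟨P, hP⟩ := (AlgHom.mem_range _).mp ((Algebra.adjoin_range_eq_range_aeval _ _).le hx)
    exact ⟨P, Subtype.ext hP⟩
  have hkerπ : RingHom.ker π ≤ RingHom.ker (MvPolynomial.aeval (R := Qbar) m) := fun P hP =>
    hker (congrArg Subtype.val hP)
  let φ : A →ₐ[Qbar] M :=
    (Ideal.Quotient.liftₐ (RingHom.ker π) (MvPolynomial.aeval m) (fun P hP => hkerπ hP)).comp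
      (Ideal.quotientKerAlgEquivOfSurjective hπ).symm.toAlgHom
  have hφ : ∀ P, φ (π P) = MvPolynomial.aeval m P := by
    intro P
    have : (Ideal.quotientKerAlgEquivOfSurjective hπ).symm (π P) = Ideal.Quotient.mk _ P := by
      rw [AlgEquiv.symm_apply_eq]
      rfl
    simp only [φ, AlgHom.comp_apply]
    refine Eq.trans (congrArg _ (show
      (Ideal.quotientKerAlgEquivOfSurjective hπ).symm.toAlgHom (π P) = Ideal.Quotient.mk _ P
      from this)) ?_
    exact Ideal.Quotient.lift_mk _ _ _
  have hφinj : Function.Injective φ := by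
    rw [injective_iff_map_eq_zero]
    intro x hx
    obtain ⟨P, rfl⟩ := hπ x
    rw [hφ, ← h] at hx
    exact Subtype.ext hx
  let ψ := IsFractionRing.liftAlgHom (K := adjoin Qbar (Set.range (jgen N))) hφinj
  refine ⟨ψ.comp (IntermediateField.equivOfEq (field_eq_adjoin N)).toAlgHom, fun d => ?_⟩
  have h1 : (IntermediateField.equivOfEq (field_eq_adjoin N)) (gen N d) =
      algebraMap A (adjoin Qbar (Set.range (jgen N)))
        (π (MvPolynomial.X d)) := by
    refine Subtype.ext ?_
    show jgen N d = MvPolynomial.aeval (jgen N) (MvPolynomial.X d)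
    rw [MvPolynomial.aeval_X]
  show ψ ((IntermediateField.equivOfEq (field_eq_adjoin N)) (gen N d)) = _
  rw [h1]
  simp [ψ, hφ]

theorem algHom_ext [NeZero N] {M : Type*} [Field M] [Algebra Qbar M]
    {σ σ' : modularFunctionFieldBar N →ₐ[Qbar] M} (h : ∀ d, σ (gen N d) = σ' (gen N d)) :
    σ = σ' := by
  refine AlgHom.ext fun x => ?_
  obtain ⟨P, Q, -, rfl⟩ := exists_repr N x
  have : ∀ R : MvPolynomial N.divisors Qbar,
      σ (MvPolynomial.aeval (gen N) R) = σ' (MvPolynomial.aeval (gen N) R) := by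
    intro R
    rw [MvPolynomial.comp_aeval_apply, MvPolynomial.comp_aeval_apply]
    congr 2
    exact funext h
  rw [map_div₀, map_div₀, this, this]

theorem meromorphicAt_aeval {σ : Type*} {f : σ → ℂ → ℂ} {z₀ : ℂ}
    (hf : ∀ d, MeromorphicAt (f d) z₀) (P : MvPolynomial σ Qbar) :
    MeromorphicAt (fun z => MvPolynomial.aeval (fun d => f d z) P) z₀ := by
  induction P using MvPolynomial.induction_on with
  | C a => simpa using MeromorphicAt.const _ _
  | add p q hp hq =>
    simp only [map_add]
    exact hp.add hq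
  | mul_X p d hp =>
    simp only [map_mul, MvPolynomial.aeval_X]
    exact hp.mul (hf d)

theorem aeval_germOf {σ : Type*} {f : σ → ℂ → ℂ} {z₀ : ℂ}
    (hf : ∀ d, MeromorphicAt (f d) z₀) (P : MvPolynomial σ Qbar) :
    MvPolynomial.aeval (fun d => germOf (f d) (hf d)) P =
      germOf _ (meromorphicAt_aeval hf P) := by
  induction P using MvPolynomial.induction_on with
  | C a =>
    rw [MvPolynomial.aeval_C, IsScalarTower.algebraMap_apply Qbar ℂ (MeroGerm z₀),
      algebraMap_eq_germOf, germOf_eq_iff]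
    exact Filter.Eventually.of_forall fun z => by simp
  | add p q hp hq =>
    rw [map_add, hp, hq, germOf_add, germOf_eq_iff]
    exact Filter.Eventually.of_forall fun z => by simp
  | mul_X p d hp =>
    rw [map_mul, MvPolynomial.aeval_X, hp, germOf_mul, germOf_eq_iff]
    exact Filter.Eventually.of_forall fun z => by simp

end FLTAgent.Genus
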