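import Fermat.Agent.Genus.Embed
import Fermat.Agent.Genus.Fibre
import Fermat.Agent.Genus.Cosets

/-!
Charts: meromorphic realisations of the conjugates of the modular function field at a point.
-/

set_option autoImplicit false

noncomputable section

open ModularCurve Filter Topology
open scoped MatrixGroups

namespace FLTAgent.Genus

variable (N : ℕ)

/-- a local realisation, for every coset, of the functions `j(d τ)` -/
structure Chart where
  /-- the point -/
  pt : ℂ
  /-- the functions -/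
  f : CosetSpace N → N.divisors → ℂ → ℂ
  mero : ∀ i d, MeromorphicAt (f i d) pt
  faithful : ∀ (i : CosetSpace N) (P : MvPolynomial N.divisors Qbar),
    MvPolynomial.aeval (jgen N) P = 0 ↔
      ∀ᶠ z in 𝓝[≠] pt, MvPolynomial.aeval (fun d => f i d z) P = 0
  sep : ∀ i i', (∀ d, f i d =ᶠ[𝓝[≠] pt] f i' d) → i = i'

namespace Chart

variable {N}
variable (C : Chart N)

theorem exists_sigma [NeZero N] (i : CosetSpace N) :
    ∃ σ : modularFunctionFieldBar N →ₐ[Qbar] MeroGerm C.pt,
      ∀ d, σ (gen N d) = germOf (C.f i d) (C.mero i d) := by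
  refine exists_algHom _ fun P => ?_
  rw [C.faithful i P, aeval_germOf, germOf_eq_zero_iff, meromorphicOrderAt_eq_top_iff]

variable [NeZero N]

/-- the embedding attached to a coset -/
def sigma (i : CosetSpace N) : modularFunctionFieldBar N →ₐ[Qbar] MeroGerm C.pt :=
  (C.exists_sigma i).choose

theorem sigma_gen (i : CosetSpace N) (d : N.divisors) :
    C.sigma i (gen N d) = germOf (C.f i d) (C.mero i d) :=
  (C.exists_sigma i).choose_spec d

theorem sigma_aeval (i : CosetSpace N) (P : MvPolynomial N.divisors Qbar) :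
    C.sigma i (MvPolynomial.aeval (gen N) P) =
      germOf _ (meromorphicAt_aeval (C.mero i) P) := by
  rw [MvPolynomial.comp_aeval_apply, ← aeval_germOf (C.mero i) P]
  congr 2
  exact funext (C.sigma_gen i)

theorem sigma_injective : Function.Injective C.sigma := by
  intro i i' h
  refine C.sep i i' fun d => ?_
  rw [← germOf_eq_iff (C.mero i d) (C.mero i' d), ← C.sigma_gen, ← C.sigma_gen, h]

/-- order of a polynomial in the generators -/
def ordP (i : CosetSpace N) (P : MvPolynomial N.divisors Qbar) : ℤ :=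
  (meromorphicOrderAt (fun z => MvPolynomial.aeval (fun d => C.f i d z) P) C.pt).untop₀

theorem vlog_sigma_aeval (i : CosetSpace N) (P : MvPolynomial N.divisors Qbar) :
    vlog (ordVal C.pt) (C.sigma i (MvPolynomial.aeval (gen N) P)) = C.ordP i P := by
  rw [sigma_aeval, vlog, log_ordVal_germOf]
  rfl

theorem vlog_sigma (i : CosetSpace N) (x : modularFunctionFieldBar N) :
    x = 0 ∨ ∃ P Q, x = MvPolynomial.aeval (gen N) P / MvPolynomial.aeval (gen N) Q ∧
      ∀ i', vlog (ordVal C.pt) (C.sigma i' x) = C.ordP i' P - C.ordP i' Q := by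
  rcases eq_or_ne x 0 with rfl | hx
  · exact Or.inl rfl
  right
  obtain ⟨P, Q, hQ, rfl⟩ := exists_repr N x
  refine ⟨P, Q, rfl, fun i' => ?_⟩
  have hP : MvPolynomial.aeval (gen N) P ≠ 0 := fun h => hx (by rw [h, zero_div])
  rw [map_div₀, div_eq_mul_inv, vlog_mul _ ((map_ne_zero _).mpr hP)
    (inv_ne_zero ((map_ne_zero _).mpr hQ)), vlog_inv, vlog_sigma_aeval, vlog_sigma_aeval]
  ring

/-- a symmetry of the chart: an element of SL(2,ℤ) acting through a local biholomorphism -/
structure Sym (C : Chart N) (γ : SL(2, ℤ)) (u : ℂ → ℂ) : Prop where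
  analytic : AnalyticAt ℂ u C.pt
  ne_zero : u C.pt ≠ 0
  transport : ∀ i d, C.f (γ • i) d =ᶠ[𝓝[≠] C.pt]
    fun z => C.f i d (C.pt + (z - C.pt) * u z)

variable {C} {γ : SL(2, ℤ)} {u : ℂ → ℂ}

theorem Sym.aeval_transport (h : C.Sym γ u) (i : CosetSpace N)
    (P : MvPolynomial N.divisors Qbar) :
    (fun z => MvPolynomial.aeval (fun d => C.f (γ • i) d z) P) =ᶠ[𝓝[≠] C.pt]
      fun z => MvPolynomial.aeval (fun d => C.f i d (C.pt + (z - C.pt) * u z)) P := by
  filter_upwards [eventually_all.mpr (h.transport i)] with z hz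
  congr 2
  exact funext hz

theorem Sym.ordP_smul (h : C.Sym γ u) (i : CosetSpace N) (P : MvPolynomial N.divisors Qbar) :
    C.ordP (γ • i) P = C.ordP i P := by
  have hg : AnalyticAt ℂ (fun z => C.pt + (z - C.pt) * u z) C.pt := by
    have := h.analytic
    fun_prop
  have hd : deriv (fun z => C.pt + (z - C.pt) * u z) C.pt ≠ 0 := by
    have h1 : HasDerivAt (fun z => C.pt + (z - C.pt) * u z)
        (1 * u C.pt + (C.pt - C.pt) * deriv u C.pt) C.pt :=
      (((hasDerivAt_id C.pt).sub_const C.pt).mul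
        h.analytic.differentiableAt.hasDerivAt).const_add C.pt
    rw [h1.deriv]
    simpa using h.ne_zero
  rw [ordP, ordP, meromorphicOrderAt_congr (h.aeval_transport i P)]
  show (meromorphicOrderAt ((fun w => MvPolynomial.aeval (fun d => C.f i d w) P) ∘
    fun z => C.pt + (z - C.pt) * u z) C.pt).untop₀ = _
  rw [meromorphicOrderAt_comp_of_deriv_ne_zero hg hd]
  simp

theorem Sym.dvd_ordP (h : C.Sym γ u) {i : CosetSpace N} (hi : γ • i = i)
    (P : MvPolynomial N.divisors Qbar) : (orderOf (u C.pt) : ℤ) ∣ C.ordP i P := by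
  have h1 := h.aeval_transport i P
  rw [hi] at h1
  exact orderOf_dvd_meromorphicOrderAt h.analytic h.ne_zero (meromorphicAt_aeval (C.mero i) P)
    (h1.mono fun z hz => hz.symm)

theorem Sym.vlog_smul (h : C.Sym γ u) (i : CosetSpace N) (x : modularFunctionFieldBar N) :
    vlog (ordVal C.pt) (C.sigma (γ • i) x) = vlog (ordVal C.pt) (C.sigma i x) := by
  rcases C.vlog_sigma i x with rfl | ⟨P, Q, -, hx⟩
  · simp
  · rw [hx, hx, h.ordP_smul, h.ordP_smul]

theorem Sym.val_smul (h : C.Sym γ u) (i : CosetSpace N) (x : modularFunctionFieldBar N) :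
    ordVal C.pt (C.sigma (γ • i) x) = ordVal C.pt (C.sigma i x) := by
  rcases eq_or_ne x 0 with rfl | hx
  · simp
  have h1 := h.vlog_smul i x
  have ne : ∀ j : CosetSpace N, ordVal C.pt (C.sigma j x) ≠ 0 := fun j =>
    (Valuation.ne_zero_iff _).mpr ((map_ne_zero _).mpr hx)
  simp only [vlog, neg_inj] at h1
  rw [← WithZero.exp_log (ne (γ • i)), ← WithZero.exp_log (ne i), h1]

theorem Sym.dvd_vlog (h : C.Sym γ u) {i : CosetSpace N} (hi : γ • i = i)
    (x : modularFunctionFieldBar N) :
    (orderOf (u C.pt) : ℤ) ∣ vlog (ordVal C.pt) (C.sigma i x) := by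
  rcases C.vlog_sigma i x with rfl | ⟨P, Q, -, hx⟩
  · simp [vlog]
  · rw [hx]
    exact dvd_sub (h.dvd_ordP hi P) (h.dvd_ordP hi Q)

theorem Sym.val_orbit (h : C.Sym γ u) {i i' : CosetSpace N}
    (hr : MulAction.orbitRel (Subgroup.zpowers γ) (CosetSpace N) i i')
    (x : modularFunctionFieldBar N) :
    ordVal C.pt (C.sigma i x) = ordVal C.pt (C.sigma i' x) := by
  obtain ⟨⟨_, n, rfl⟩, hn⟩ := hr
  change γ ^ n • i' = i at hn
  subst hn
  induction n using Int.induction_on with
  | zero => simp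
  | succ n ih =>
    rw [add_comm, zpow_add, zpow_one, mul_smul, h.val_smul, ih]
  | pred n ih =>
    rw [← ih, ← h.val_smul (γ ^ (-(n : ℤ) - 1) • i'), ← mul_smul, ← zpow_one_add]
    simp

end Chart

end FLTAgent.Genus
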