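import Fermat.Agent.Genus.Chart
import Fermat.Agent.ModFun.API

/-!
The charts of `X₀(N)` at points of the upper half plane and at infinity.
-/

set_option autoImplicit false

noncomputable section

open ModularCurve Filter Topology UpperHalfPlane CongruenceSubgroup ModularGroup
open scoped MatrixGroups Manifold

namespace FLTAgent.Genus

open FLTAgent.ModFun

variable (N : ℕ) [NeZero N]

/-- `j(d g⁻¹ τ)` -/
def conjJ (d : ℕ) [NeZero d] (g : SL(2, ℤ)) (τ : ℍ) : ℂ := jFun (scale d (g⁻¹ • τ))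

variable {N}

theorem jFun_scale_Gamma0 {d : ℕ} [NeZero d] (hd : d ∣ N) {δ : SL(2, ℤ)} (hδ : δ ∈ Gamma0 N)
    (τ : ℍ) : jFun (scale d (δ • τ)) = jFun (scale d τ) := by
  rw [Gamma0_mem, ZMod.intCast_zmod_eq_zero_iff_dvd] at hδ
  obtain ⟨c', hc'⟩ := (Int.natCast_dvd_natCast.mpr hd).trans hδ
  have hdet : δ 0 0 * δ 1 1 - δ 0 1 * δ 1 0 = 1 := by
    have := δ.prop; rwa [Matrix.det_fin_two] at this
  rw [hc'] at hdet
  rw [(scale_smul_eq d δ ⟨!![δ 0 0, (d : ℤ) * δ 0 1; c', δ 1 1], by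
      rw [Matrix.det_fin_two_of]; linear_combination hdet⟩ d 0 1
      (by simp [mul_comm]) (by simp) (by simp [hc', mul_comm]) (by simp) τ).1, jFun_smul]
  rfl

theorem conjJ_congr {d : ℕ} [NeZero d] (hd : d ∣ N) {g g' : SL(2, ℤ)}
    (h : (QuotientGroup.mk g : CosetSpace N) = QuotientGroup.mk g') (τ : ℍ) :
    conjJ d g τ = conjJ d g' τ := by
  rw [QuotientGroup.eq] at h
  have : g⁻¹ • τ = (g⁻¹ * g') • (g'⁻¹ • τ) := by rw [← mul_smul, mul_assoc]; simp
  rw [conjJ, this, jFun_scale_Gamma0 hd h]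
  rfl

theorem conjJ_smul {d : ℕ} [NeZero d] (hd : d ∣ N) (γ : SL(2, ℤ)) (i : CosetSpace N) (τ : ℍ) :
    conjJ d (γ • i).out τ = conjJ d i.out (γ⁻¹ • τ) := by
  rw [conjJ_congr hd (g' := γ * i.out) (by
    rw [QuotientGroup.out_eq', ← smul_eq_mul, ← MulAction.Quotient.smul_mk, QuotientGroup.out_eq'])]
  rw [conjJ, conjJ, mul_inv_rev, mul_smul]

theorem mdiff_conjJ (d : ℕ) [NeZero d] (g : SL(2, ℤ)) : MDiff (conjJ d g) :=
  (mdiff_dil mdiff_jFun d).comp
    (UpperHalfPlane.mdifferentiable_smul (g := (Matrix.SpecialLinearGroup.mapGL ℝ g⁻¹))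
      (by simp))

theorem conjJ_one (g : SL(2, ℤ)) (τ : ℍ) : conjJ 1 g τ = jFun τ := by
  have h : ∀ z : ℍ, scale 1 z = z := fun z => by ext; simp [coe_scale]
  rw [conjJ, h, jFun_smul]

theorem sep_of_eq {i i' : CosetSpace N}
    (h : ∀ τ : ℍ, conjJ N i.out τ = conjJ N i'.out τ) : i = i' := by
  have h' := (jFun_scale_conj_eq_iff N i.out⁻¹ i'.out⁻¹).mp h
  rw [inv_inv] at h'
  rw [← QuotientGroup.out_eq' i, ← QuotientGroup.out_eq' i', QuotientGroup.eq]
  exact h'

theorem analyticOnNhd_ofComplex {F : ℍ → ℂ} (hF : MDiff F) :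
    AnalyticOnNhd ℂ (fun z => F (ofComplex z)) upperHalfPlaneSet :=
  (UpperHalfPlane.mdifferentiable_iff.mp hF).analyticOnNhd isOpen_upperHalfPlaneSet

theorem mdiff_aeval_conjJ (g : SL(2, ℤ)) (P : MvPolynomial N.divisors Qbar) :
    MDiff (fun τ : ℍ => MvPolynomial.aeval (fun d : N.divisors => conjJ (d : ℕ) g τ) P) := by
  induction P using MvPolynomial.induction_on with
  | C a => simp only [MvPolynomial.aeval_C]; exact mdifferentiable_const
  | add p q hp hq => simp only [map_add]; exact hp.add hq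
  | mul_X p d hp =>
    simp only [map_mul, MvPolynomial.aeval_X]
    exact hp.mul (mdiff_conjJ _ g)

theorem relation_iff (g : SL(2, ℤ)) (P : MvPolynomial N.divisors Qbar) :
    MvPolynomial.aeval (jgen N) P = 0 ↔
      ∀ τ : ℍ, MvPolynomial.aeval (fun d : N.divisors => conjJ (d : ℕ) g τ) P = 0 := by
  refine (transferBar embC (fun d : N.divisors => (d : ℕ)) P).trans ?_
  have h : ∀ v : N.divisors → ℂ,
      MvPolynomial.eval v (MvPolynomial.map embC P) = MvPolynomial.aeval v P := fun v => by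
    rw [MvPolynomial.eval_map]; rfl
  simp only [h, conjJ]
  constructor
  · exact fun H τ => H _
  · intro H τ
    have := H (g • τ)
    simpa only [inv_smul_smul] using this

theorem eq_zero_of_eventually {F : ℍ → ℂ} (hF : MDiff F) {τ₀ : ℍ}
    (h : ∀ᶠ z in 𝓝[≠] (τ₀ : ℂ), F (ofComplex z) = 0) (τ : ℍ) : F τ = 0 := by
  have hconn : IsPreconnected upperHalfPlaneSet :=
    (convex_halfSpace_im_gt (0 : ℝ)).isPreconnected
  have := (analyticOnNhd_ofComplex hF).eqOn_zero_of_preconnected_of_frequently_eq_zero hconn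
    τ₀.im_pos h.frequently τ.im_pos
  simpa using this

/-- the chart at a point of the upper half plane -/
def interiorChart (N : ℕ) [NeZero N] (τ₀ : ℍ) : Chart N where
  pt := τ₀
  f i d := fun z => conjJ (d : ℕ) i.out (ofComplex z)
  mero i d := ((analyticOnNhd_ofComplex (mdiff_conjJ (d : ℕ) i.out)) _ τ₀.im_pos).meromorphicAt
  faithful i P := by
    rw [relation_iff i.out P]
    exact ⟨fun h => Eventually.of_forall fun z => h _,
      fun h => eq_zero_of_eventually (mdiff_aeval_conjJ i.out P) h⟩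
  sep i i' h := by
    have hN := h ⟨N, Nat.mem_divisors_self N (NeZero.ne N)⟩
    refine sep_of_eq fun τ => sub_eq_zero.mp ?_
    exact eq_zero_of_eventually
      (F := fun τ => conjJ N i.out τ - conjJ N i'.out τ)
      ((mdiff_conjJ N _).sub (mdiff_conjJ N _))
      (hN.mono fun z hz => sub_eq_zero.mpr hz) τ

/-- the denominator of `γ⁻¹` -/
def cden (γ : SL(2, ℤ)) (z : ℂ) : ℂ :=
  ((γ⁻¹ : SL(2, ℤ)) 1 0 : ℤ) * z + ((γ⁻¹ : SL(2, ℤ)) 1 1 : ℤ)

theorem cden_ne_zero (γ : SL(2, ℤ)) (τ : ℍ) : cden γ τ ≠ 0 := by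
  rw [cden, ← denom_SL]
  exact denom_ne_zero _ τ

theorem interior_sym {τ₀ : ℍ} {γ : SL(2, ℤ)} (hfix : γ • τ₀ = τ₀) :
    (interiorChart N τ₀).Sym γ (fun z => (cden γ z * cden γ τ₀)⁻¹) := by
  set a : ℂ := (((γ⁻¹ : SL(2, ℤ)) 0 0 : ℤ) : ℂ) with ha
  set b : ℂ := (((γ⁻¹ : SL(2, ℤ)) 0 1 : ℤ) : ℂ) with hb
  set c : ℂ := (((γ⁻¹ : SL(2, ℤ)) 1 0 : ℤ) : ℂ) with hc
  set e : ℂ := (((γ⁻¹ : SL(2, ℤ)) 1 1 : ℤ) : ℂ) with he
  have hdet : a * e - b * c = 1 := by
    have := (γ⁻¹ : SL(2, ℤ)).prop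
    rw [Matrix.det_fin_two] at this
    have h' := congrArg (Int.cast : ℤ → ℂ) this
    push_cast at h'
    exact h'
  have hact : ∀ τ : ℍ, ((γ⁻¹ • τ : ℍ) : ℂ) = (a * τ + b) / (c * τ + e) := fun τ => by
    rw [coe_specialLinearGroup_apply]
    simp [ha, hb, hc, he]
  have h0 : c * (τ₀ : ℂ) + e ≠ 0 := cden_ne_zero γ τ₀
  have hfix' : (a * τ₀ + b) / (c * τ₀ + e) = (τ₀ : ℂ) := by
    rw [← hact]
    conv_lhs => rw [← hfix, inv_smul_smul]
  refine ⟨?_, ?_, ?_⟩
  · refine AnalyticAt.inv ?_ (mul_ne_zero (cden_ne_zero γ τ₀) (cden_ne_zero γ τ₀))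
    show AnalyticAt ℂ (fun z => (c * z + e) * (c * τ₀ + e)) τ₀
    fun_prop
  · exact inv_ne_zero (mul_ne_zero (cden_ne_zero γ τ₀) (cden_ne_zero γ τ₀))
  · intro i d
    have hpos : ∀ᶠ z in 𝓝[≠] (τ₀ : ℂ), z ∈ upperHalfPlaneSet :=
      eventually_nhdsWithin_of_eventually_nhds (isOpen_upperHalfPlaneSet.mem_nhds τ₀.im_pos)
    filter_upwards [hpos] with z hz
    show conjJ (d : ℕ) (γ • i).out (ofComplex z) = conjJ (d : ℕ) i.out (ofComplex _)
    rw [conjJ_smul (Nat.dvd_of_mem_divisors d.2)]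
    have hz' : c * z + e ≠ 0 := cden_ne_zero γ ⟨z, hz⟩
    have key : ((τ₀ : ℂ) + (z - τ₀) * (cden γ z * cden γ τ₀)⁻¹) =
        ((γ⁻¹ • ofComplex z : ℍ) : ℂ) := by
      rw [hact, ofComplex_apply_of_im_pos hz]
      show (τ₀ : ℂ) + (z - τ₀) * ((c * z + e) * (c * τ₀ + e))⁻¹ = (a * z + b) / (c * z + e)
      have hf : (τ₀ : ℂ) * (c * τ₀ + e) = a * τ₀ + b := ((div_eq_iff h0).mp hfix').symm
      rw [eq_div_iff hz']
      refine mul_right_cancel₀ h0 ?_
      rw [← inv_mul_cancel₀ (mul_ne_zero hz' h0)] at hdet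
      have hi : ((c * z + e) * (c * τ₀ + e))⁻¹ * ((c * z + e) * (c * τ₀ + e)) = 1 :=
        inv_mul_cancel₀ (mul_ne_zero hz' h0)
      linear_combination (c * z + e) * hf + ((τ₀ : ℂ) - z) * hdet
    show _ = conjJ (d : ℕ) i.out (ofComplex ((τ₀ : ℂ) + (z - τ₀) * (cden γ z * cden γ τ₀)⁻¹))
    rw [key, ofComplex_apply]

theorem cden_S : cden S (UpperHalfPlane.I : ℂ) ^ 2 = -1 := by
  simp [cden, S, Matrix.SpecialLinearGroup.coe_inv, Matrix.adjugate_fin_two, UpperHalfPlane.I]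

theorem cden_ST : cden (S * T) (UpperHalfPlane.ρ : ℂ) ^ 2 = (UpperHalfPlane.ρ : ℂ) ^ 2 := by
  simp [cden, S, T, Matrix.SpecialLinearGroup.coe_inv, Matrix.adjugate_fin_two, Matrix.mul_apply,
    Fin.sum_univ_two]

theorem S_smul_I : S • UpperHalfPlane.I = UpperHalfPlane.I := by
  ext
  rw [coe_specialLinearGroup_apply]
  simp [S, UpperHalfPlane.I]

theorem ST_smul_rho : (S * T) • UpperHalfPlane.ρ = UpperHalfPlane.ρ := by
  ext
  rw [coe_specialLinearGroup_apply]
  have h := UpperHalfPlane.ρ_sq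
  have h1 : (UpperHalfPlane.ρ : ℂ) + 1 ≠ 0 := by
    intro h0
    rw [eq_neg_of_add_eq_zero_left h0] at h
    norm_num at h
  simp [S, T, Matrix.mul_apply, Fin.sum_univ_two]
  rw [eq_comm, eq_div_iff h1]
  linear_combination h

/-- `q`-coordinate functions -/
theorem exists_cuspFun (d : ℕ) [NeZero d] (hd : d ∣ N) (g : SL(2, ℤ)) :
    ∃ G : ℂ → ℂ, MeromorphicAt G 0 ∧
      ∀ᶠ τ : ℍ in atImInfty, conjJ d g τ = G (Function.Periodic.qParam N (τ : ℂ)) := by
  obtain ⟨γ', A, B, D, hA, hD, hAD, -, h00, h01, h10, h11⟩ := exists_hermite d g⁻¹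
  obtain ⟨u, hu, -, hev⟩ := jFun_atImInfty
  set m : ℕ := A * (N / D) with hm
  have hDN : D ∣ N := (Dvd.intro_left A hAD).trans hd
  set ζ : ℂ := Complex.exp (2 * Real.pi * Complex.I * B / D) with hζ
  have hm0 : m ≠ 0 := Nat.mul_ne_zero (NeZero.ne A)
    (Nat.div_pos (Nat.le_of_dvd (Nat.pos_of_ne_zero (NeZero.ne N)) hDN)
      (Nat.pos_of_ne_zero (NeZero.ne D))).ne'
  have han : AnalyticAt ℂ (fun q : ℂ => ζ * q ^ m) 0 := by fun_prop
  refine ⟨fun q => u (ζ * q ^ m) / (ζ * q ^ m), ?_, ?_⟩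
  · have h1 : AnalyticAt ℂ (fun q : ℂ => u (ζ * q ^ m)) 0 :=
      hu.comp_of_eq han (by simp [zero_pow hm0])
    exact h1.meromorphicAt.div han.meromorphicAt
  · filter_upwards [(tendsto_aff A B D).eventually hev] with τ hτ
    rw [conjJ, (scale_smul_eq d g⁻¹ γ' A B D h00 h01 h10 h11 τ).1, jFun_smul, hτ]
    have key : Function.Periodic.qParam 1 ((aff A B D τ : ℍ) : ℂ) =
        ζ * Function.Periodic.qParam N (τ : ℂ) ^ m := by
      rw [Function.Periodic.qParam, Function.Periodic.qParam, ← Complex.exp_nat_mul, hζ,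
        ← Complex.exp_add, coe_aff]
      congr 1
      have hN : (N : ℂ) ≠ 0 := by exact_mod_cast NeZero.ne N
      have hD' : (D : ℂ) ≠ 0 := by exact_mod_cast NeZero.ne D
      have : (m : ℂ) * D = A * N := by
        rw [hm]
        exact_mod_cast by rw [mul_assoc, Nat.div_mul_cancel hDN]
      push_cast
      field_simp
      linear_combination (-(τ : ℂ)) * this
    rw [key]

/-- transport an eventual property from `i∞` to the punctured disc -/
theorem eventually_punctured_of_atImInfty {p : ℂ → Prop}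
    (h : ∀ᶠ τ : ℍ in atImInfty, p (Function.Periodic.qParam N (τ : ℂ))) :
    ∀ᶠ q in 𝓝[≠] (0 : ℂ), p q := by
  have hN : (0 : ℝ) < N := by exact_mod_cast Nat.pos_of_ne_zero (NeZero.ne N)
  obtain ⟨A, hA⟩ := (atImInfty_mem _).mp h
  have hev : ∀ᶠ z in comap Complex.im atTop, max A 1 ≤ z.im :=
    preimage_mem_comap (Ici_mem_atTop _)
  filter_upwards [(Function.Periodic.invQParam_tendsto hN).eventually hev,
    self_mem_nhdsWithin] with q hq hq0
  have hpos : 0 < (Function.Periodic.invQParam N q).im :=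
    lt_of_lt_of_le zero_lt_one ((le_max_right _ _).trans hq)
  have := hA ⟨_, hpos⟩ ((le_max_left _ _).trans hq)
  simpa [Function.Periodic.qParam_right_inv hN.ne' hq0] using this

theorem eventually_atImInfty_of_punctured {p : ℂ → Prop}
    (h : ∀ᶠ q in 𝓝[≠] (0 : ℂ), p q) :
    ∀ᶠ τ : ℍ in atImInfty, p (Function.Periodic.qParam N (τ : ℂ)) := by
  have hN : (0 : ℝ) < N := by exact_mod_cast Nat.pos_of_ne_zero (NeZero.ne N)
  have h1 := (Function.Periodic.qParam_tendsto hN).eventually h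
  have ht : Tendsto (fun τ : ℍ => (τ : ℂ)) atImInfty (comap Complex.im atTop) :=
    tendsto_comap_iff.mpr (tendsto_comap (f := UpperHalfPlane.im))
  exact ht.eventually h1

theorem eq_zero_of_atImInfty {F : ℍ → ℂ} (hF : MDiff F)
    (h : ∀ᶠ τ : ℍ in atImInfty, F τ = 0) (τ : ℍ) : F τ = 0 := by
  obtain ⟨A, hA⟩ := (atImInfty_mem _).mp h
  set τ₁ : ℍ := ⟨Complex.I * ((|A| + 1 : ℝ) : ℂ), by simp; positivity⟩
  refine eq_zero_of_eventually hF (τ₀ := τ₁) ?_ τ
  have hopen : IsOpen {z : ℂ | max A 0 < z.im} := isOpen_lt continuous_const Complex.continuous_im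
  have hmem : (τ₁ : ℂ) ∈ {z : ℂ | max A 0 < z.im} := by
    show max A 0 < (Complex.I * ((|A| + 1 : ℝ) : ℂ)).im
    simp
    have := le_abs_self A
    constructor
    · linarith
    · positivity
  filter_upwards [eventually_nhdsWithin_of_eventually_nhds (hopen.mem_nhds hmem)] with z hz
  have hz0 : 0 < z.im := lt_of_le_of_lt (le_max_right _ _) hz
  rw [ofComplex_apply_of_im_pos hz0]
  exact hA _ (le_of_lt (lt_of_le_of_lt (le_max_left _ _) hz))

/-- the function of `q` -/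
def cuspFun (d : N.divisors) (i : CosetSpace N) : ℂ → ℂ :=
  (exists_cuspFun (d : ℕ) (Nat.dvd_of_mem_divisors d.2) i.out).choose

theorem cuspFun_spec (d : N.divisors) (i : CosetSpace N) :
    MeromorphicAt (cuspFun d i) 0 ∧
      ∀ᶠ τ : ℍ in atImInfty, conjJ (d : ℕ) i.out τ = cuspFun d i (Function.Periodic.qParam N τ) :=
  (exists_cuspFun (d : ℕ) (Nat.dvd_of_mem_divisors d.2) i.out).choose_spec

/-- the chart at infinity -/
def cuspChart (N : ℕ) [NeZero N] : Chart N where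
  pt := 0
  f i d := cuspFun d i
  mero i d := (cuspFun_spec d i).1
  faithful i P := by
    rw [relation_iff i.out P]
    constructor
    · intro h
      refine eventually_punctured_of_atImInfty (N := N) ?_
      filter_upwards [eventually_all.mpr fun d => (cuspFun_spec d i).2] with τ hτ
      rw [← funext hτ]
      exact h τ
    · intro h
      refine eq_zero_of_atImInfty (mdiff_aeval_conjJ i.out P) ?_
      filter_upwards [eventually_all.mpr fun d => (cuspFun_spec d i).2,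
        eventually_atImInfty_of_punctured (N := N) h] with τ hτ hτ'
      rw [funext hτ]
      exact hτ'
  sep i i' h := by
    refine sep_of_eq fun τ => sub_eq_zero.mp ?_
    refine eq_zero_of_atImInfty (F := fun τ => conjJ N i.out τ - conjJ N i'.out τ)
      ((mdiff_conjJ N _).sub (mdiff_conjJ N _)) ?_ τ
    let top : N.divisors := ⟨N, Nat.mem_divisors_self N (NeZero.ne N)⟩
    filter_upwards [(cuspFun_spec top i).2, (cuspFun_spec top i').2,
      eventually_atImInfty_of_punctured (N := N) (h top)] with τ h1 h2 h3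
    exact sub_eq_zero.mpr (h1.trans (h3.trans h2.symm))

theorem cusp_sym (w : ℤ) :
    (cuspChart N).Sym (T ^ w)
      (fun _ => Complex.exp (-(2 * Real.pi * Complex.I * w / N))) := by
  refine ⟨analyticAt_const, Complex.exp_ne_zero _, fun i d => ?_⟩
  set c := Complex.exp (-(2 * Real.pi * Complex.I * w / N)) with hc
  show cuspFun d (T ^ w • i) =ᶠ[𝓝[≠] (0 : ℂ)] fun z => cuspFun d i (0 + (z - 0) * c)
  refine eventually_punctured_of_atImInfty (N := N) ?_
  have ht : Tendsto (fun τ : ℍ => (T ^ w)⁻¹ • τ) atImInfty atImInfty := by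
    refine tendsto_comap_iff.mpr ?_
    refine (tendsto_comap (f := UpperHalfPlane.im)).congr fun τ => ?_
    rw [Function.comp_apply, ← zpow_neg, im_T_zpow_smul]
  filter_upwards [(cuspFun_spec d (T ^ w • i)).2, ht.eventually (cuspFun_spec d i).2] with τ h1 h2
  rw [← h1, conjJ_smul (Nat.dvd_of_mem_divisors d.2), h2]
  congr 1
  rw [← zpow_neg, coe_T_zpow_smul_eq, zero_add, sub_zero, Function.Periodic.qParam,
    Function.Periodic.qParam, hc, ← Complex.exp_add]
  congr 1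
  push_cast
  ring

end FLTAgent.Genus
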